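import Mathlib

/-!
# Program MW (S17), global layer : the abstract orbit-average operator

`G` a group acting on `Z`, `V` a type of "places", `F : V → Z → ℝ` a local function.  For `z : Z`
with finite orbit,

  `htgaAvg G F z = (∑ y ∈ orbit of z, ∑ᶠ v, F v y) / #orbit`.

Linearity, invariance, compatibility with equivariant projections (`htgaAvg_proj`), and the
local-to-global principle (`htgaAvg_mono`, `htgaAvg_abs_sub_le`).
-/

set_option autoImplicit false

noncomputable section

namespace Fermat.Agent.HT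

open MulAction Function

variable (G : Type*) [Group G] {Z Z' : Type*} [MulAction G Z] [MulAction G Z'] {V : Type*}

open scoped Classical in
/-- the orbit of `z` as a `Finset` (junk value `∅` when the orbit is infinite). -/
def htgaOrb (z : Z) : Finset Z :=
  if h : (orbit G z).Finite then h.toFinset else ∅

variable {G}

theorem mem_htgaOrb {z : Z} (hz : (orbit G z).Finite) {y : Z} :
    y ∈ htgaOrb G z ↔ y ∈ orbit G z := by
  rw [htgaOrb, dif_pos hz, Set.Finite.mem_toFinset]

theorem htgaOrb_subset {z y : Z} (hy : y ∈ htgaOrb G z) : y ∈ orbit G z := by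
  by_cases hz : (orbit G z).Finite
  · exact (mem_htgaOrb hz).mp hy
  · rw [htgaOrb, dif_neg hz] at hy
    exact absurd hy (Finset.notMem_empty y)

theorem self_mem_htgaOrb {z : Z} (hz : (orbit G z).Finite) : z ∈ htgaOrb G z :=
  (mem_htgaOrb hz).mpr (mem_orbit_self z)

theorem htgaOrb_card_pos {z : Z} (hz : (orbit G z).Finite) : 0 < (htgaOrb G z).card :=
  Finset.card_pos.mpr ⟨z, self_mem_htgaOrb hz⟩

theorem htgaOrb_smul (σ : G) (z : Z) : htgaOrb G (σ • z) = htgaOrb G z := by
  have h : orbit G (σ • z) = orbit G z := orbit_smul σ z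
  ext y
  by_cases hz : (orbit G z).Finite
  · rw [mem_htgaOrb hz, mem_htgaOrb (h ▸ hz), h]
  · have hz' : ¬ (orbit G (σ • z)).Finite := by rwa [h]
    rw [htgaOrb, htgaOrb, dif_neg hz, dif_neg hz']

theorem smul_mem_htgaOrb {z : Z} (hz : (orbit G z).Finite) (σ : G) {y : Z}
    (hy : y ∈ htgaOrb G z) : σ • y ∈ htgaOrb G z := by
  rw [mem_htgaOrb hz] at hy ⊢
  obtain ⟨τ, rfl⟩ := hy
  exact ⟨σ * τ, (mul_smul σ τ z)⟩

variable (G)

/-- the orbit average of the local function `F` at `z`. -/
def htgaAvg (F : V → Z → ℝ) (z : Z) : ℝ :=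
  (∑ y ∈ htgaOrb G z, ∑ᶠ v, F v y) / ((htgaOrb G z).card : ℝ)

/-- finiteness condition : on the orbit of `z` the local function vanishes at almost all places. -/
def HtgaFin (F : V → Z → ℝ) (z : Z) : Prop :=
  ∀ y ∈ orbit G z, HasFiniteSupport fun v => F v y

variable {G}

theorem htgaAvg_smul (F : V → Z → ℝ) (σ : G) (z : Z) : htgaAvg G F (σ • z) = htgaAvg G F z := by
  rw [htgaAvg, htgaAvg, htgaOrb_smul]

theorem HtgaFin.smul {F : V → Z → ℝ} {z : Z} (h : HtgaFin G F z) (σ : G) :
    HtgaFin G F (σ • z) := by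
  intro y hy
  rw [orbit_smul] at hy
  exact h y hy

/-- the average only depends on the values on the orbit. -/
theorem htgaAvg_congr {F F' : V → Z → ℝ} {z : Z} (h : ∀ v, ∀ y ∈ orbit G z, F v y = F' v y) :
    htgaAvg G F z = htgaAvg G F' z := by
  rw [htgaAvg, htgaAvg]
  congr 1
  refine Finset.sum_congr rfl fun y hy => ?_
  exact finsum_congr fun v => h v y (htgaOrb_subset hy)

theorem HtgaFin.congr {F F' : V → Z → ℝ} {z : Z} (hF : HtgaFin G F z)
    (h : ∀ v, ∀ y ∈ orbit G z, F v y = F' v y) : HtgaFin G F' z := by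
  intro y hy
  have : (fun v => F' v y) = fun v => F v y := funext fun v => (h v y hy).symm
  rw [this]
  exact hF y hy

/-- the average of a function fixed point : if `z` is fixed by `G`, the average is the value. -/
theorem htgaAvg_of_fixed (F : V → Z → ℝ) {z : Z} (hz : ∀ σ : G, σ • z = z) :
    htgaAvg G F z = ∑ᶠ v, F v z := by
  have horb : orbit G z = {z} := by
    ext y
    constructor
    · rintro ⟨σ, rfl⟩
      exact hz σ
    · rintro rfl
      exact mem_orbit_self _
  have hfin : (orbit G z).Finite := by rw [horb]; exact Set.finite_singleton z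
  have : htgaOrb G z = {z} := by
    ext y
    rw [mem_htgaOrb hfin, horb, Finset.mem_singleton, Set.mem_singleton_iff]
  rw [htgaAvg, this, Finset.sum_singleton, Finset.card_singleton, Nat.cast_one, div_one]

/-- exchange of the two sums. -/
theorem htgaAvg_eq_finsum {F : V → Z → ℝ} {z : Z} (hF : HtgaFin G F z) :
    htgaAvg G F z = (∑ᶠ v, ∑ y ∈ htgaOrb G z, F v y) / ((htgaOrb G z).card : ℝ) := by
  rw [htgaAvg, finsum_sum_comm]
  exact fun y hy => hF y (htgaOrb_subset hy)

/-! ### linearity -/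

theorem HtgaFin.add {f g : V → Z → ℝ} {z : Z} (hf : HtgaFin G f z) (hg : HtgaFin G g z) :
    HtgaFin G (fun v y => f v y + g v y) z := fun y hy =>
  (Set.Finite.union (hf y hy) (hg y hy)).subset (Function.support_add _ _)

theorem HtgaFin.neg {f : V → Z → ℝ} {z : Z} (hf : HtgaFin G f z) :
    HtgaFin G (fun v y => -f v y) z := fun y hy => by
  have : (support fun v => -f v y) = support fun v => f v y := Function.support_neg _
  rw [HasFiniteSupport, this]
  exact hf y hy

theorem HtgaFin.sub {f g : V → Z → ℝ} {z : Z} (hf : HtgaFin G f z) (hg : HtgaFin G g z) :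
    HtgaFin G (fun v y => f v y - g v y) z := by
  simp only [sub_eq_add_neg]
  exact hf.add hg.neg

theorem HtgaFin.const_mul {f : V → Z → ℝ} {z : Z} (hf : HtgaFin G f z) (c : ℝ) :
    HtgaFin G (fun v y => c * f v y) z := fun y hy =>
  (hf y hy).subset (fun v hv => by
    rw [Function.mem_support] at hv ⊢
    exact fun h => hv (by show c * f v y = 0; rw [h, mul_zero]))

theorem HtgaFin.finset_sum {α : Type*} {s : Finset α} {f : α → V → Z → ℝ} {z : Z}
    (hf : ∀ a ∈ s, HtgaFin G (f a) z) : HtgaFin G (fun v y => ∑ a ∈ s, f a v y) z := by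
  classical
  induction s using Finset.induction_on with
  | empty =>
    intro y _
    simp only [Finset.sum_empty]
    exact Function.hasFiniteSupport_zero
  | insert a s ha ih =>
    have h1 := hf a (Finset.mem_insert_self a s)
    have h2 := ih fun b hb => hf b (Finset.mem_insert_of_mem hb)
    refine (h1.add h2).congr fun v y _ => ?_
    rw [Finset.sum_insert ha]

theorem htgaAvg_add {f g : V → Z → ℝ} {z : Z} (hf : HtgaFin G f z) (hg : HtgaFin G g z) :
    htgaAvg G (fun v y => f v y + g v y) z = htgaAvg G f z + htgaAvg G g z := by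
  rw [htgaAvg, htgaAvg, htgaAvg, ← add_div, ← Finset.sum_add_distrib]
  congr 1
  refine Finset.sum_congr rfl fun y hy => ?_
  exact finsum_add_distrib (hf y (htgaOrb_subset hy)) (hg y (htgaOrb_subset hy))

theorem htgaAvg_const_mul (f : V → Z → ℝ) (z : Z) (c : ℝ) :
    htgaAvg G (fun v y => c * f v y) z = c * htgaAvg G f z := by
  rw [htgaAvg, htgaAvg, ← mul_div_assoc, Finset.mul_sum]
  congr 1
  refine Finset.sum_congr rfl fun y _ => ?_
  exact (mul_finsum (fun v => f v y) c).symm

theorem htgaAvg_neg (f : V → Z → ℝ) (z : Z) :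
    htgaAvg G (fun v y => -f v y) z = -htgaAvg G f z := by
  have := htgaAvg_const_mul (G := G) f z (-1)
  simpa using this

theorem htgaAvg_sub {f g : V → Z → ℝ} {z : Z} (hf : HtgaFin G f z) (hg : HtgaFin G g z) :
    htgaAvg G (fun v y => f v y - g v y) z = htgaAvg G f z - htgaAvg G g z := by
  simp only [sub_eq_add_neg]
  rw [htgaAvg_add hf hg.neg, htgaAvg_neg]

theorem htgaAvg_zero (z : Z) : htgaAvg G (fun (_ : V) (_ : Z) => (0 : ℝ)) z = 0 := by
  simp [htgaAvg]

theorem htgaAvg_finset_sum {α : Type*} {s : Finset α} {f : α → V → Z → ℝ} {z : Z}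
    (hf : ∀ a ∈ s, HtgaFin G (f a) z) :
    htgaAvg G (fun v y => ∑ a ∈ s, f a v y) z = ∑ a ∈ s, htgaAvg G (f a) z := by
  classical
  induction s using Finset.induction_on with
  | empty => simp [htgaAvg]
  | insert a s ha ih =>
    have h1 := hf a (Finset.mem_insert_self a s)
    have h2 : ∀ b ∈ s, HtgaFin G (f b) z := fun b hb => hf b (Finset.mem_insert_of_mem hb)
    rw [Finset.sum_insert ha, ← ih h2, ← htgaAvg_add h1 (HtgaFin.finset_sum h2)]
    refine htgaAvg_congr fun v y _ => ?_
    rw [Finset.sum_insert ha]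

/-! ### local-to-global -/

/-- **local-to-global** : a local inequality with constants `c v` (zero for almost all `v`) on the
orbit of `z` gives the global inequality with the constant `∑ᶠ v, c v`. -/
theorem htgaAvg_mono {f g : V → Z → ℝ} {z : Z} (hz : (orbit G z).Finite)
    (hf : HtgaFin G f z) (hg : HtgaFin G g z) {c : V → ℝ} (hc : HasFiniteSupport c)
    (h : ∀ v, ∀ y ∈ orbit G z, f v y ≤ g v y + c v) :
    htgaAvg G f z ≤ htgaAvg G g z + ∑ᶠ v, c v := by
  have hpos : (0 : ℝ) < ((htgaOrb G z).card : ℝ) := by exact_mod_cast htgaOrb_card_pos hz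
  have h1 : ∀ y ∈ htgaOrb G z, ∑ᶠ v, f v y ≤ (∑ᶠ v, g v y) + ∑ᶠ v, c v := by
    intro y hy
    have hy' := htgaOrb_subset hy
    rw [← finsum_add_distrib (hg y hy') hc]
    refine finsum_le_finsum' (hf y hy') ?_ (fun v => h v y hy')
    exact (Set.Finite.union (hg y hy') hc).subset (Function.support_add _ _)
  have h2 := Finset.sum_le_sum h1
  rw [Finset.sum_add_distrib, Finset.sum_const, nsmul_eq_mul] at h2
  rw [htgaAvg, htgaAvg, div_add' _ _ _ hpos.ne', div_le_div_iff_of_pos_right hpos]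
  linarith

theorem htgaAvg_abs_sub_le {f g : V → Z → ℝ} {z : Z} (hz : (orbit G z).Finite)
    (hf : HtgaFin G f z) (hg : HtgaFin G g z) {c : V → ℝ} (hc : HasFiniteSupport c)
    (h : ∀ v, ∀ y ∈ orbit G z, |f v y - g v y| ≤ c v) :
    |htgaAvg G f z - htgaAvg G g z| ≤ ∑ᶠ v, c v := by
  have h1 := htgaAvg_mono hz hf hg hc (fun v y hy => by
    have := (abs_le.mp (h v y hy)).2
    linarith)
  have h2 := htgaAvg_mono hz hg hf hc (fun v y hy => by
    have := (abs_le.mp (h v y hy)).1
    linarith)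
  rw [abs_le]
  constructor <;> linarith

theorem htgaAvg_nonneg {f : V → Z → ℝ} {z : Z} (h : ∀ v, ∀ y ∈ orbit G z, 0 ≤ f v y) :
    0 ≤ htgaAvg G f z := by
  refine div_nonneg (Finset.sum_nonneg fun y hy => finsum_nonneg fun v => ?_) (Nat.cast_nonneg _)
  exact h v y (htgaOrb_subset hy)

/-! ### equivariant projections -/

open scoped Classical in
/-- **projection formula** : for an equivariant map `π`, the average of `F ∘ π` at `z` is the average
of `F` at `π z`. -/
theorem htgaAvg_proj (F : V → Z' → ℝ) (π : Z → Z') (hπ : ∀ (σ : G) (z : Z), π (σ • z) = σ • π z)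
    {z : Z} (hz : (orbit G z).Finite) :
    htgaAvg G (fun v y => F v (π y)) z = htgaAvg G F (π z) := by
  have himg : orbit G (π z) = π '' orbit G z := by
    ext y'
    constructor
    · rintro ⟨σ, rfl⟩
      exact ⟨σ • z, ⟨σ, rfl⟩, hπ σ z⟩
    · rintro ⟨y, ⟨σ, rfl⟩, rfl⟩
      exact ⟨σ, (hπ σ z).symm⟩
  have hz' : (orbit G (π z)).Finite := by rw [himg]; exact hz.image π
  set O := htgaOrb G z with hO
  set O' := htgaOrb G (π z) with hO'
  have hmaps : ∀ y ∈ O, π y ∈ O' := by
    intro y hy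
    rw [hO', mem_htgaOrb hz', himg]
    exact ⟨y, (mem_htgaOrb hz).mp hy, rfl⟩
  set k : ℕ := (O.filter fun y => π y = π z).card with hk
  -- all fibres have the same cardinality
  have hfib : ∀ y' ∈ O', (O.filter fun y => π y = y').card = k := by
    intro y' hy'
    obtain ⟨σ, rfl⟩ := (mem_htgaOrb hz').mp hy'
    symm
    refine Finset.card_nbij' (fun y => σ • y) (fun y => σ⁻¹ • y) ?_ ?_ ?_ ?_
    · intro y hy
      rw [Finset.mem_coe, Finset.mem_filter] at hy ⊢
      exact ⟨smul_mem_htgaOrb hz σ hy.1, by rw [hπ, hy.2]⟩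
    · intro y hy
      rw [Finset.mem_coe, Finset.mem_filter] at hy ⊢
      refine ⟨smul_mem_htgaOrb hz σ⁻¹ hy.1, ?_⟩
      show π (σ⁻¹ • y) = π z
      rw [hπ, hy.2, inv_smul_smul]
    · intro y _
      exact inv_smul_smul σ y
    · intro y _
      exact smul_inv_smul σ y
  have hkpos : 0 < k := by
    rw [hk, Finset.card_pos]
    exact ⟨z, Finset.mem_filter.mpr ⟨self_mem_htgaOrb hz, rfl⟩⟩
  have hcard : O.card = k * O'.card := by
    rw [Finset.card_eq_sum_card_fiberwise hmaps, Finset.sum_congr rfl hfib, Finset.sum_const,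
      smul_eq_mul, mul_comm]
  have hsum : ∑ y ∈ O, ∑ᶠ v, F v (π y) = (k : ℝ) * ∑ y' ∈ O', ∑ᶠ v, F v y' := by
    rw [← Finset.sum_fiberwise_of_maps_to hmaps, Finset.mul_sum]
    refine Finset.sum_congr rfl fun y' hy' => ?_
    have : ∀ y ∈ O.filter (fun y => π y = y'), ∑ᶠ v, F v (π y) = ∑ᶠ v, F v y' := by
      intro y hy
      rw [(Finset.mem_filter.mp hy).2]
    rw [Finset.sum_congr rfl this, Finset.sum_const, hfib y' hy', nsmul_eq_mul]
  have hO'pos : (0 : ℝ) < (O'.card : ℝ) := by exact_mod_cast htgaOrb_card_pos hz'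
  have hk' : (0 : ℝ) < (k : ℝ) := by exact_mod_cast hkpos
  rw [htgaAvg, htgaAvg, ← hO, ← hO', hsum, hcard, Nat.cast_mul]
  field_simp

theorem HtgaFin.proj {F : V → Z' → ℝ} {π : Z → Z'} (hπ : ∀ (σ : G) (z : Z), π (σ • z) = σ • π z)
    {z : Z} (hF : HtgaFin G F (π z)) : HtgaFin G (fun v y => F v (π y)) z := by
  rintro y ⟨σ, rfl⟩
  exact hF (π (σ • z)) ⟨σ, (hπ σ z).symm⟩

end Fermat.Agent.HT
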