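import Fermat.Agent.HT.Glob.Sum
import Fermat.Agent.HT.HadamardLog
import Fermat.Agent.HT.HadamardLoc

/-!
# Global Hadamard inequality (S17 heights, blueprint (8.4)(a)); owner helper18, prefix `htgh`/`htgc`

* `htgcBeta y y'` : the GLOBAL CHORDAL DISTANCE of two vectors over `Q̄`,
  `htgHt (y ∧ y') - htgHt y - htgHt y'` (`= ∑_v log δ_v(y, y')` averaged over conjugates);
  symmetric, projectively invariant, `≤ log 2`, and equal to the global sum of
  `log ‖y ∧ y'‖ - log ‖y‖ - log ‖y'‖` over ANY master tuple containing the three tuples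
  (`htgcBeta_eq_sum`).
* `htgh_main` : from the LOCAL Hadamard bound
  `w d ≤ C.val w * ∏ b, ‖ω b‖_w * ∏ i, ∏ k < i, δ_w(y k, y i)` at all admissible absolute values,
  with `d ≠ 0` (`d = det[ω_a(Q_b)]`, `ω b = ω(Q_b)`, `y b = φ(Q_b)`), the GLOBAL inequality
  `0 ≤ ∑ b, htgHt (ω b) + ∑ i, ∑ k < i, htgcBeta (y k) (y i) + htgC C`.
-/

set_option autoImplicit false

noncomputable section

namespace Fermat.Agent.HT

open Finset

/-! ### the global chordal distance -/

section Beta

variable {ι : Type*} [Finite ι]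

/-- the global chordal distance of two vectors (of two points of projective space over `Q̄`) -/
def htgcBeta (y y' : ι → HtgQb) : ℝ := htgHt (htlWedge y y') - htgHt y - htgHt y'

theorem htgHt_neg' {κ : Type*} [Finite κ] (z : κ → HtgQb) : htgHt (-z) = htgHt z := by
  have h := htgHt_smul z (c := (-1 : HtgQb)) (by norm_num)
  rwa [neg_one_smul] at h

theorem htgcBeta_comm (y y' : ι → HtgQb) : htgcBeta y y' = htgcBeta y' y := by
  unfold htgcBeta
  rw [htlWedge_swap y' y, htgHt_neg']
  ring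

theorem htgcBeta_smul_left {c : HtgQb} (hc : c ≠ 0) (y y' : ι → HtgQb) :
    htgcBeta (c • y) y' = htgcBeta y y' := by
  unfold htgcBeta
  rw [htlWedge_smul_left, htgHt_smul _ hc, htgHt_smul _ hc]

theorem htgcBeta_smul_right {c : HtgQb} (hc : c ≠ 0) (y y' : ι → HtgQb) :
    htgcBeta y (c • y') = htgcBeta y y' := by
  rw [htgcBeta_comm, htgcBeta_smul_left hc, htgcBeta_comm]

/-- the global chordal distance as a global sum over any master tuple containing the three
tuples `y`, `y'`, `y ∧ y'` as sub-tuples. -/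
theorem htgcBeta_eq_sum {κ : Type*} [Finite κ] (a : κ → HtgQb) (f f' : ι → κ) (g : ι × ι → κ)
    (y y' : ι → HtgQb) (hf : a ∘ f = y) (hf' : a ∘ f' = y') (hg : a ∘ g = htlWedge y y')
    (hy : y ≠ 0) (hy' : y' ≠ 0) (hw : htlWedge y y' ≠ 0) :
    htgSum (fun t => Real.log (⨆ p, t (g p)) - Real.log (⨆ i, t (f i)) -
      Real.log (⨆ i, t (f' i))) a = htgcBeta y y' := by
  have h1 : HtgFin (fun t => Real.log (⨆ p, t (g p))) a := htgFin_log_sup a g (by rw [hg]; exact hw)
  have h2 : HtgFin (fun t => Real.log (⨆ i, t (f i))) a := htgFin_log_sup a f (by rw [hf]; exact hy)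
  have h3 : HtgFin (fun t => Real.log (⨆ i, t (f' i))) a :=
    htgFin_log_sup a f' (by rw [hf']; exact hy')
  rw [htgSum_sub (h1.sub h2) h3, htgSum_sub h1 h2, htgSum_log_sup, htgSum_log_sup, htgSum_log_sup,
    hf, hf', hg]
  rfl

/-- the global constant of `2^{[arch]}` is `log 2` -/
theorem htgC_ofNat_one : htgC (HtConst.ofNat 1 : HtConst HtgQb) = Real.log 2 := by
  classical
  have hval : ∀ v : HtPl, (htgConj (HtConst.ofNat 1 : HtConst HtgQb)).val (htgW v).1 =
      htlArch (htgW v).1 2 := by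
    intro v
    rw [HtConst.val_eq]
    simp only [htgConj, HtConst.ofNat, HtConst.fin, pow_zero, mul_one]
    norm_num
  rw [htgC, htgConst]
  rw [finsum_eq_single _ (none : HtPl)]
  · rw [hval, htlArch_of_not_nonarch htgW_not_nonarch]
  · intro v hv
    cases v with
    | none => exact absurd rfl hv
    | some p => rw [hval, htlArch_of_nonarch (htgW_nonarch p), Real.log_one]

/-- **`β ≤ log 2`** -/
theorem htgcBeta_le (y y' : ι → HtgQb) (hw : htlWedge y y' ≠ 0) :
    htgcBeta y y' ≤ Real.log 2 := by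
  have hy : y ≠ 0 := by
    rintro rfl
    exact hw (htlWedge_zero_left y')
  have hy' : y' ≠ 0 := by
    rintro rfl
    exact hw (htlWedge_zero_right y)
  set a : (ι ⊕ ι) ⊕ (ι × ι) → HtgQb := Sum.elim (Sum.elim y y') (htlWedge y y') with ha
  set f : ι → (ι ⊕ ι) ⊕ (ι × ι) := fun i => Sum.inl (Sum.inl i) with hf
  set f' : ι → (ι ⊕ ι) ⊕ (ι × ι) := fun i => Sum.inl (Sum.inr i) with hf'
  set g : ι × ι → (ι ⊕ ι) ⊕ (ι × ι) := fun p => Sum.inr p with hg
  have e := htgcBeta_eq_sum a f f' g y y' rfl rfl rfl hy hy' hw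
  have h1 : HtgFin (fun t => Real.log (⨆ p, t (g p))) a := htgFin_log_sup a g hw
  have h2 : HtgFin (fun t => Real.log (⨆ i, t (f i))) a := htgFin_log_sup a f hy
  have h3 : HtgFin (fun t => Real.log (⨆ i, t (f' i))) a := htgFin_log_sup a f' hy'
  have h0 : HtgFin (fun _ => (0 : ℝ)) a := htgFin_of_indicator _ a rfl
  have hmono := htg_mono' (HtConst.ofNat 1) ((h1.sub h2).sub h3) h0 (fun w => by
    show Real.log (htlSup w.1 (htlWedge y y')) - Real.log (htlSup w.1 y) -
      Real.log (htlSup w.1 y') ≤ 0 + Real.log ((HtConst.ofNat 1 : HtConst HtgQb).val w.1)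
    have hpw : 0 < htlSup w.1 (htlWedge y y') := htlSup_pos_iff.2 hw
    have hpy : 0 < htlSup w.1 y := htlSup_pos_iff.2 hy
    have hpy' : 0 < htlSup w.1 y' := htlSup_pos_iff.2 hy'
    have hle := htlSup_wedge_le w.1 y y'
    have hA : 0 < htlArch w.1 2 := htlArch_pos w.1 (by norm_num)
    have hlog := Real.log_le_log hpw hle
    rw [Real.log_mul hA.ne' (mul_pos hpy hpy').ne', Real.log_mul hpy.ne' hpy'.ne'] at hlog
    rw [htl_val_ofNat]
    norm_num
    linarith)
  rw [e, htgSum_zero, zero_add, htgC_ofNat_one] at hmono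
  exact hmono

end Beta

/-! ### the global Hadamard inequality -/

section Main

variable {r : ℕ} {J ι : Type*} [Finite J] [Finite ι]

/-- the index type of the master tuple of the Hadamard inequality -/
abbrev HtghIdx (r : ℕ) (J ι : Type*) : Type _ :=
  Unit ⊕ ((Fin r × J) ⊕ ((Fin r × ι) ⊕ (Fin r × Fin r × (ι × ι))))

/-- the master tuple: `d`, the entries of the `ω b`, of the `y b`, and of the wedges -/
def htghTuple (ω : Fin r → J → HtgQb) (y : Fin r → ι → HtgQb) (d : HtgQb) :
    HtghIdx r J ι → HtgQb :=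
  Sum.elim (fun _ => d) (Sum.elim (fun p => ω p.1 p.2)
    (Sum.elim (fun p => y p.1 p.2) (fun p => htlWedge (y p.1) (y p.2.1) p.2.2)))

/-- position of `d` -/
def htghD : HtghIdx r J ι := Sum.inl ()

/-- positions of the entries of `ω b` -/
def htghOm (b : Fin r) : J → HtghIdx r J ι := fun j => Sum.inr (Sum.inl (b, j))

/-- positions of the entries of `y b` -/
def htghY (b : Fin r) : ι → HtghIdx r J ι := fun i => Sum.inr (Sum.inr (Sum.inl (b, i)))

/-- positions of the entries of `y k ∧ y i` -/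
def htghW (k i : Fin r) : ι × ι → HtghIdx r J ι :=
  fun p => Sum.inr (Sum.inr (Sum.inr (k, i, p)))

omit [Finite J] [Finite ι] in
theorem htghTuple_d (ω : Fin r → J → HtgQb) (y : Fin r → ι → HtgQb) (d : HtgQb) :
    htghTuple ω y d htghD = d := rfl

omit [Finite J] [Finite ι] in
theorem htghTuple_om (ω : Fin r → J → HtgQb) (y : Fin r → ι → HtgQb) (d : HtgQb) (b : Fin r) :
    htghTuple ω y d ∘ htghOm b = ω b := rfl

omit [Finite J] [Finite ι] in
theorem htghTuple_y (ω : Fin r → J → HtgQb) (y : Fin r → ι → HtgQb) (d : HtgQb) (b : Fin r) :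
    htghTuple ω y d ∘ htghY b = y b := rfl

omit [Finite J] [Finite ι] in
theorem htghTuple_w (ω : Fin r → J → HtgQb) (y : Fin r → ι → HtgQb) (d : HtgQb) (k i : Fin r) :
    htghTuple ω y d ∘ htghW k i = htlWedge (y k) (y i) := rfl

/-- **Global Hadamard inequality** (blueprint (8.4)(a)). -/
theorem htgh_main (ω : Fin r → J → HtgQb) (y : Fin r → ι → HtgQb) {d : HtgQb} (hd : d ≠ 0)
    (C : HtConst HtgQb)
    (hloc : ∀ w : HtAbs HtgQb, w d ≤ C.val w.1 * (∏ b, htlSup w.1 (ω b)) *
      ∏ i, ∏ k ∈ Finset.univ.filter (· < i), htlDist w.1 (y k) (y i)) :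
    0 ≤ ∑ b, htgHt (ω b) + ∑ i, ∑ k ∈ Finset.univ.filter (· < i), htgcBeta (y k) (y i) +
      htgC C := by
  classical
  -- nonvanishing of all the tuples
  obtain ⟨hω, hy⟩ := hthg_ne_zero (htgW none).1 ω y hd (hloc (htgW none))
  set a := htghTuple ω y d with ha
  -- the two local functions
  set Φ₁ : (HtghIdx r J ι → ℝ) → ℝ := fun t => Real.log (t htghD) with hΦ₁
  set A : Fin r → (HtghIdx r J ι → ℝ) → ℝ := fun b t => Real.log (⨆ j, t (htghOm b j)) with hA
  set B : Fin r → Fin r → (HtghIdx r J ι → ℝ) → ℝ := fun k i t =>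
    Real.log (⨆ p, t (htghW k i p)) - Real.log (⨆ j, t (htghY k j)) -
      Real.log (⨆ j, t (htghY i j)) with hB
  set Φ₂ : (HtghIdx r J ι → ℝ) → ℝ := fun t =>
    ∑ b, A b t + ∑ i, ∑ k ∈ Finset.univ.filter (· < i), B k i t with hΦ₂
  -- finiteness side conditions
  have hf1 : HtgFin Φ₁ a := htgFin_log a htghD (by rw [ha, htghTuple_d]; exact hd)
  have hfA : ∀ b, HtgFin (A b) a := fun b =>
    htgFin_log_sup a (htghOm b) (by rw [ha, htghTuple_om]; exact hω b)
  have hfB : ∀ i, ∀ k ∈ Finset.univ.filter (· < i), HtgFin (B k i) a := by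
    intro i k hk
    obtain ⟨hw, hyk, hyi⟩ := hy i k (Finset.mem_filter.1 hk).2
    have h1 : HtgFin (fun t => Real.log (⨆ p, t (htghW k i p))) a :=
      htgFin_log_sup a (htghW k i) (by rw [ha, htghTuple_w]; exact hw)
    have h2 : HtgFin (fun t => Real.log (⨆ j, t (htghY k j))) a :=
      htgFin_log_sup a (htghY k) (by rw [ha, htghTuple_y]; exact hyk)
    have h3 : HtgFin (fun t => Real.log (⨆ j, t (htghY i j))) a :=
      htgFin_log_sup a (htghY i) (by rw [ha, htghTuple_y]; exact hyi)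
    exact (h1.sub h2).sub h3
  have hfA' : HtgFin (fun t => ∑ b, A b t) a :=
    HtgFin.finset_sum (s := Finset.univ) (Φ := A) fun b _ => hfA b
  have hfBi : ∀ i, HtgFin (fun t => ∑ k ∈ Finset.univ.filter (· < i), B k i t) a := fun i =>
    HtgFin.finset_sum (s := Finset.univ.filter (· < i)) (Φ := fun k => B k i) (hfB i)
  have hfB' : HtgFin (fun t => ∑ i, ∑ k ∈ Finset.univ.filter (· < i), B k i t) a :=
    HtgFin.finset_sum (s := Finset.univ)
      (Φ := fun i t => ∑ k ∈ Finset.univ.filter (· < i), B k i t) fun i _ => hfBi i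
  have hf2 : HtgFin Φ₂ a := hfA'.add hfB'
  -- local-to-global
  have hmono := htg_mono' C hf1 hf2 (fun w => by
    have h := hthg_log_le w.1 ω y hd (htl_val_pos C w.1) (hloc w)
    have e : Φ₂ (fun k => w (a k)) + Real.log (C.val w.1) =
        Real.log (C.val w.1) + ∑ b, Real.log (htlSup w.1 (ω b)) +
          ∑ i, ∑ k ∈ Finset.univ.filter (· < i),
            (Real.log (htlSup w.1 (htlWedge (y k) (y i))) - Real.log (htlSup w.1 (y k)) -
              Real.log (htlSup w.1 (y i))) := by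
      simp only [hΦ₂, hA, hB]
      rw [add_comm, add_assoc]
      rfl
    rw [e]
    exact h)
  -- the product formula
  have hpf : htgSum Φ₁ a = 0 := htg_product_formula a htghD (by rw [ha, htghTuple_d]; exact hd)
  -- evaluation of the right hand side
  have hsumA : htgSum (fun t => ∑ b, A b t) a = ∑ b, htgHt (ω b) := by
    rw [htgSum_finset_sum (s := Finset.univ) (Φ := A) fun b _ => hfA b]
    refine Finset.sum_congr rfl fun b _ => ?_
    rw [hA, htgSum_log_sup, ha, htghTuple_om]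
  have hsumB : htgSum (fun t => ∑ i, ∑ k ∈ Finset.univ.filter (· < i), B k i t) a =
      ∑ i, ∑ k ∈ Finset.univ.filter (· < i), htgcBeta (y k) (y i) := by
    rw [htgSum_finset_sum (s := Finset.univ)
      (Φ := fun i t => ∑ k ∈ Finset.univ.filter (· < i), B k i t) fun i _ => hfBi i]
    refine Finset.sum_congr rfl fun i _ => ?_
    rw [htgSum_finset_sum (s := Finset.univ.filter (· < i)) (Φ := fun k => B k i) (hfB i)]
    refine Finset.sum_congr rfl fun k hk => ?_
    obtain ⟨hw, hyk, hyi⟩ := hy i k (Finset.mem_filter.1 hk).2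
    exact htgcBeta_eq_sum a (htghY k) (htghY i) (htghW k i) (y k) (y i)
      (htghTuple_y ω y d k) (htghTuple_y ω y d i) (htghTuple_w ω y d k i) hyk hyi hw
  have hsum : htgSum Φ₂ a = ∑ b, htgHt (ω b) +
      ∑ i, ∑ k ∈ Finset.univ.filter (· < i), htgcBeta (y k) (y i) := by
    rw [hΦ₂, htgSum_add hfA' hfB', hsumA, hsumB]
  rw [hpf, hsum] at hmono
  exact hmono

/-- **Global Hadamard inequality for determinants**: the local decomposition estimate `hstar`
(the `≤` half of (★-off), dropped zeros) for the evaluation vectors `ψ P`, with the chordal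
distance of the embedding vectors `φ P`, gives for points `Q b` with
`det[ψ (Q b) (c a)] ≠ 0` the global lower bound
`∑_{k<i} β(φ(Q k), φ(Q i)) ≥ - ∑_b htgHt (ψ (Q b)) - htgC (hthlConst C r)`. -/
theorem htgh_det {Pt : Type*} [Fintype J] (ψ : Pt → J → HtgQb) (φ : Pt → ι → HtgQb)
    (C : HtConst HtgQb)
    (hstar : ∀ (w : HtAbs HtgQb) (s : J → HtgQb) (l : Finset Pt) (R : Pt), R ∉ l →
      (∀ P ∈ l, ∑ j, s j * ψ P j = 0) →
      w (∑ j, s j * ψ R j) ≤ C.val w.1 * htlSup w.1 s * htlSup w.1 (ψ R) *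
        ∏ P ∈ l, htlDist w.1 (φ P) (φ R))
    (Q : Fin r → Pt) (c : Fin r → J)
    (hdet : Matrix.det (Matrix.of fun i a => ψ (Q i) (c a)) ≠ 0) :
    0 ≤ ∑ b, htgHt (ψ (Q b)) +
      ∑ i, ∑ k ∈ Finset.univ.filter (· < i), htgcBeta (φ (Q k)) (φ (Q i)) +
        htgC (hthlConst C r) :=
  htgh_main (fun b => ψ (Q b)) (fun b => φ (Q b)) hdet (hthlConst C r) fun w =>
    hthl_det_le ψ (fun w P R => htlDist w (φ P) (φ R)) (fun w _ _ => htlDist_nonneg w _ _) C
      hstar r w Q c

end Main

end Fermat.Agent.HT
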