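import Mathlib
import Fermat.Agent.HT.Glob.Avg

/-!
# Program MW (S17), global layer : Galois orbits of algebraic numbers and of tuples

`Γ = Gal(Q̄/ℚ)` acts on `Q̄ = AlgebraicClosure ℚ` and (coordinatewise) on tuples `ι → Q̄`.
* `htga_orbit_eq_rootSet` : the orbit of `a` is the root set of `minpoly ℚ a`;
* `htga_orbit_tuple_finite` : orbits of finite tuples are finite;
* `htgaOrb_card` : the orbit of `a` has `(minpoly ℚ a).natDegree` elements.
-/

set_option autoImplicit false

noncomputable section

namespace Fermat.Agent.HT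

open MulAction Function Polynomial

local notation "Qb" => AlgebraicClosure ℚ
local notation "Γ" => (AlgebraicClosure ℚ) ≃ₐ[ℚ] (AlgebraicClosure ℚ)

local instance htgaIsAlgebraicQb : Algebra.IsAlgebraic ℚ (AlgebraicClosure ℚ) :=
  AlgebraicClosure.isAlgebraic ℚ
local instance htgaIsAlgClosureQb : IsAlgClosure ℚ (AlgebraicClosure ℚ) :=
  ⟨inferInstance, inferInstance⟩
local instance htgaNormalQb : Normal ℚ (AlgebraicClosure ℚ) :=
  IsAlgClosure.normal ℚ (AlgebraicClosure ℚ)

variable {ι : Type*}

theorem htga_smul_apply (σ : Γ) (z : ι → Qb) (i : ι) : (σ • z) i = σ (z i) := rfl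

theorem htga_smul_def (σ : Γ) (a : Qb) : σ • a = σ a := rfl

theorem htga_isIntegral (a : Qb) : IsIntegral ℚ a :=
  ((AlgebraicClosure.isAlgebraic ℚ).isAlgebraic a).isIntegral

/-- the Galois orbit of an algebraic number is the set of roots of its minimal polynomial. -/
theorem htga_orbit_eq_rootSet (a : Qb) : orbit Γ a = (minpoly ℚ a).rootSet Qb := by
  ext b
  rw [← Normal.minpoly_eq_iff_mem_orbit (F := ℚ) (E := Qb)]
  constructor
  · intro h
    rw [mem_rootSet]
    refine ⟨minpoly.ne_zero (htga_isIntegral a), ?_⟩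
    rw [← h]
    exact minpoly.aeval ℚ b
  · intro h
    rw [mem_rootSet] at h
    exact (minpoly.eq_of_irreducible_of_monic (minpoly.irreducible (htga_isIntegral a)) h.2
      (minpoly.monic (htga_isIntegral a))).symm

theorem htga_orbit_finite (a : Qb) : (orbit Γ a).Finite := by
  rw [htga_orbit_eq_rootSet]
  exact rootSet_finite _ _

/-- Galois orbits of tuples are finite. -/
theorem htga_orbit_tuple_finite [Finite ι] (z : ι → Qb) : (orbit Γ z).Finite := by
  refine (Set.Finite.pi (t := fun i => orbit Γ (z i)) fun i => htga_orbit_finite (z i)).subset ?_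
  rintro _ ⟨σ, rfl⟩
  rw [Set.mem_univ_pi]
  intro i
  exact ⟨σ, rfl⟩

theorem mem_htgaOrb_tuple [Finite ι] {z y : ι → Qb} :
    y ∈ htgaOrb Γ z ↔ ∃ σ : Γ, y = fun i => σ (z i) := by
  rw [mem_htgaOrb (htga_orbit_tuple_finite z)]
  constructor
  · rintro ⟨σ, rfl⟩
    exact ⟨σ, rfl⟩
  · rintro ⟨σ, rfl⟩
    exact ⟨σ, rfl⟩

open scoped Classical in
theorem htgaOrb_eq_toFinset (a : Qb) :
    htgaOrb Γ a = ((minpoly ℚ a).aroots Qb).toFinset := by
  ext b
  rw [mem_htgaOrb (htga_orbit_finite a), htga_orbit_eq_rootSet, rootSet_def, Finset.mem_coe]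

/-- the orbit of `a` has `deg (minpoly ℚ a)` elements. -/
theorem htgaOrb_card (a : Qb) : (htgaOrb Γ a).card = (minpoly ℚ a).natDegree := by
  classical
  rw [htgaOrb_eq_toFinset]
  have hsep : (minpoly ℚ a).Separable := (minpoly.irreducible (htga_isIntegral a)).separable
  have hnodup : ((minpoly ℚ a).aroots Qb).Nodup := nodup_aroots_iff_of_splits
    (minpoly.ne_zero (htga_isIntegral a)) (IsAlgClosed.splits _) |>.mpr hsep
  rw [Multiset.toFinset_card_of_nodup hnodup, aroots_def,
    splits_iff_card_roots.1 (IsAlgClosed.splits _), natDegree_map]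

/-- the product of the conjugates of `a` is, up to sign, the constant coefficient of its minimal
polynomial. -/
theorem htga_prod_orbit (a : Qb) :
    ∏ b ∈ htgaOrb Γ a, b =
      (-1) ^ (minpoly ℚ a).natDegree * algebraMap ℚ Qb ((minpoly ℚ a).coeff 0) := by
  classical
  rw [htgaOrb_eq_toFinset]
  have hsep : (minpoly ℚ a).Separable := (minpoly.irreducible (htga_isIntegral a)).separable
  have hnodup : ((minpoly ℚ a).aroots Qb).Nodup := nodup_aroots_iff_of_splits
    (minpoly.ne_zero (htga_isIntegral a)) (IsAlgClosed.splits _) |>.mpr hsep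
  have hsplit : ((minpoly ℚ a).map (algebraMap ℚ Qb)).Splits := IsAlgClosed.splits _
  have hmonic : ((minpoly ℚ a).map (algebraMap ℚ Qb)).Monic :=
    (minpoly.monic (htga_isIntegral a)).map _
  have h1 := hsplit.coeff_zero_eq_prod_roots_of_monic hmonic
  rw [coeff_map, natDegree_map] at h1
  rw [h1, ← mul_assoc, ← mul_pow, neg_one_mul, neg_neg, one_pow, one_mul,
    Finset.prod_eq_multiset_prod, Multiset.toFinset_val, Multiset.dedup_eq_self.mpr hnodup,
    Multiset.map_id', aroots_def]

end Fermat.Agent.HT
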