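import Mathlib
import Fermat.Agent.HT.Glob.Orbit

/-!
# Program MW (S17), global layer : place systems on `Q̄` and the heights they define

A *place system* is a family `W : Pl → AbsoluteValue Q̄ ℝ` with
* (fs) for `a ≠ 0`, `W v (σ a) = 1` for all `σ` and almost all `v`;
* (pf) the product formula on Galois orbits : `∑ᶠ v, ∑ b ∈ orbit a, log (W v b) = 0`.
From these two properties only :
* `HtgaSys.avg_log` : the orbit average of `log (W v (a z))` vanishes for an equivariant `a`;
* `htgaHt W y` : the absolute logarithmic height of a tuple, `HtgaSys.ht_smul` (projective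
  invariance), `htgaHt_nonneg_of_one`, `HtgaSys.ht_comp_le`;
* `htgaHt₁ W a` : the height of a number, `HtgaSys.ht₁_le_ht`.
-/

set_option autoImplicit false

noncomputable section

namespace Fermat.Agent.HT

open MulAction Function

local notation "Qb" => AlgebraicClosure ℚ
local notation "Γ" => (AlgebraicClosure ℚ) ≃ₐ[ℚ] (AlgebraicClosure ℚ)

variable {Pl : Type*}

/-- a place system on `Q̄` : finite support and the product formula on Galois orbits. -/
structure HtgaSys (W : Pl → AbsoluteValue Qb ℝ) : Prop where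
  fs : ∀ a : Qb, a ≠ 0 → {v | ∃ σ : Γ, W v (σ a) ≠ 1}.Finite
  pf : ∀ a : Qb, a ≠ 0 → ∑ᶠ v, ∑ b ∈ htgaOrb Γ a, Real.log (W v b) = 0

variable {W : Pl → AbsoluteValue Qb ℝ}

section General

variable {Z : Type*} [MulAction Γ Z]

/-- `log (W v (a z))` has finite support in `v`, uniformly on the orbit of `z`. -/
theorem HtgaSys.fin_log (S : HtgaSys W) (a : Z → Qb) (ha : ∀ (σ : Γ) (z : Z), a (σ • z) = σ (a z))
    (z : Z) (hz : a z ≠ 0) : HtgaFin Γ (fun v y => Real.log (W v (a y))) z := by
  rintro y ⟨σ, rfl⟩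
  refine (S.fs (a z) hz).subset ?_
  intro v hv
  rw [Function.mem_support] at hv
  refine ⟨σ, fun h => hv ?_⟩
  show Real.log (W v (a (σ • z))) = 0
  rw [ha, h, Real.log_one]

/-- **product formula**, orbit-average form. -/
theorem HtgaSys.avg_log (S : HtgaSys W) (a : Z → Qb)
    (ha : ∀ (σ : Γ) (z : Z), a (σ • z) = σ (a z)) {z : Z} (hfin : (orbit Γ z).Finite)
    (hz : a z ≠ 0) : htgaAvg Γ (fun v y => Real.log (W v (a y))) z = 0 := by
  have h1 := htgaAvg_proj (G := Γ) (fun v (b : Qb) => Real.log (W v b)) a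
    (fun σ z => ha σ z) hfin
  have hfin' := S.fin_log (Z := Qb) (fun b => b) (fun _ _ => rfl) (a z) hz
  rw [h1, htgaAvg_eq_finsum hfin', S.pf (a z) hz, zero_div]

variable {κ : Type*} [Finite κ]

theorem htga_iSup_eq_one {v : Pl} {x : κ → Qb} (h01 : ∀ i, x i = 0 ∨ W v (x i) = 1)
    (hx : x ≠ 0) : ⨆ i, W v (x i) = 1 := by
  obtain ⟨i₀, hi₀⟩ := Function.ne_iff.mp hx
  have : Nonempty κ := ⟨i₀⟩
  refine le_antisymm (ciSup_le fun i => ?_) ?_
  · rcases h01 i with h | h
    · rw [h, map_zero]; exact zero_le_one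
    · exact h.le
  · rcases h01 i₀ with h | h
    · exact absurd h hi₀
    · rw [← h]
      exact Finite.le_ciSup (fun i => W v (x i)) i₀

theorem htga_iSup_pos {v : Pl} {x : κ → Qb} (hx : x ≠ 0) : 0 < ⨆ i, W v (x i) := by
  obtain ⟨i₀, hi₀⟩ := Function.ne_iff.mp hx
  exact lt_of_lt_of_le ((W v).pos hi₀) (Finite.le_ciSup (fun i => W v (x i)) i₀)

/-- `log (sup_i W v (y z i))` has finite support in `v`, uniformly on the orbit of `z`. -/
theorem HtgaSys.fin_log_sup (S : HtgaSys W) (y : Z → κ → Qb)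
    (hy : ∀ (σ : Γ) (z : Z) (i : κ), y (σ • z) i = σ (y z i)) (z : Z) (hz : y z ≠ 0) :
    HtgaFin Γ (fun v z' => Real.log (⨆ i, W v (y z' i))) z := by
  have hT : (⋃ i ∈ {i | y z i ≠ 0}, {v | ∃ σ : Γ, W v (σ (y z i)) ≠ 1}).Finite :=
    Set.Finite.biUnion (Set.toFinite _) fun i hi => S.fs (y z i) hi
  rintro z' ⟨σ, rfl⟩
  refine hT.subset ?_
  intro v hv
  rw [Function.mem_support] at hv
  by_contra hnot
  apply hv
  have h01 : ∀ i, y (σ • z) i = 0 ∨ W v (y (σ • z) i) = 1 := by
    intro i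
    by_cases hi : y z i = 0
    · left
      rw [hy, hi, map_zero]
    · right
      by_contra h1
      apply hnot
      refine Set.mem_biUnion (x := i) hi ⟨σ, ?_⟩
      rwa [hy] at h1
  have hne : y (σ • z) ≠ 0 := by
    intro h0
    apply hz
    funext i
    have := congrFun h0 i
    rw [hy] at this
    exact (map_eq_zero_iff σ σ.injective).mp this
  show Real.log (⨆ i, W v (y (σ • z) i)) = 0
  rw [htga_iSup_eq_one h01 hne, Real.log_one]

end General

/-! ### the height of a tuple -/

section Height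

variable {κ κ' : Type*} [Finite κ] [Finite κ']

variable (W) in
/-- the absolute logarithmic height of a tuple, with respect to the place system `W`. -/
def htgaHt (y : κ → Qb) : ℝ :=
  htgaAvg Γ (fun v y' => Real.log (⨆ i, W v (y' i))) y

theorem HtgaSys.fin_ht (S : HtgaSys W) (y : κ → Qb) (hy : y ≠ 0) :
    HtgaFin Γ (fun v (y' : κ → Qb) => Real.log (⨆ i, W v (y' i))) y :=
  S.fin_log_sup (Z := κ → Qb) (fun y' => y') (fun _ _ _ => rfl) y hy

theorem htgaHt_nonneg_of_one (y : κ → Qb) (i₀ : κ) (h : y i₀ = 1) : 0 ≤ htgaHt W y := by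
  refine htgaAvg_nonneg ?_
  rintro v _ ⟨σ, rfl⟩
  refine Real.log_nonneg ?_
  have h1 : W v ((σ • y) i₀) = 1 := by
    rw [htga_smul_apply, h, map_one, map_one]
  rw [← h1]
  exact Finite.le_ciSup (fun i => W v ((σ • y) i)) i₀

omit [Finite κ] in
/-- the general orbit-average of the log-sup of an equivariant tuple is its height. -/
theorem htgaHt_eq_avg {Z : Type*} [MulAction Γ Z] (y : Z → κ → Qb)
    (hy : ∀ (σ : Γ) (z : Z) (i : κ), y (σ • z) i = σ (y z i)) {z : Z}
    (hfin : (orbit Γ z).Finite) :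
    htgaAvg Γ (fun v z' => Real.log (⨆ i, W v (y z' i))) z = htgaHt W (y z) :=
  htgaAvg_proj (G := Γ) (fun v (y' : κ → Qb) => Real.log (⨆ i, W v (y' i))) y
    (fun σ z => funext fun i => hy σ z i) hfin

theorem htga_orbit_prod_finite {A B : Type*} [MulAction Γ A] [MulAction Γ B] (a : A) (b : B)
    (ha : (orbit Γ a).Finite) (hb : (orbit Γ b).Finite) : (orbit Γ (a, b)).Finite := by
  refine (ha.prod hb).subset ?_
  rintro _ ⟨σ, rfl⟩
  exact ⟨⟨σ, rfl⟩, ⟨σ, rfl⟩⟩

/-- **projective invariance** of the height. -/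
theorem HtgaSys.ht_smul (S : HtgaSys W) (y : κ → Qb) {c : Qb} (hc : c ≠ 0) :
    htgaHt W (c • y) = htgaHt W y := by
  rcases eq_or_ne y 0 with rfl | hy
  · rw [smul_zero]
  have hfin : (orbit Γ (c, y)).Finite :=
    htga_orbit_prod_finite c y (htga_orbit_finite c) (htga_orbit_tuple_finite y)
  -- the three equivariant projections
  have h1 := htgaHt_eq_avg (W := W) (Z := Qb × (κ → Qb)) (fun z' => z'.1 • z'.2)
    (fun σ z i => by
      show σ z.1 * σ (z.2 i) = σ (z.1 * z.2 i)
      rw [map_mul]) hfin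
  have h2 := htgaHt_eq_avg (W := W) (Z := Qb × (κ → Qb)) (fun z' => z'.2)
    (fun σ z i => rfl) hfin
  have h3 := S.avg_log (Z := Qb × (κ → Qb)) (fun z' => z'.1) (fun σ z => rfl) hfin hc
  have hf1 := S.fin_log (Z := Qb × (κ → Qb)) (fun z' => z'.1) (fun σ z => rfl) (c, y) hc
  have hf2 := S.fin_log_sup (Z := Qb × (κ → Qb)) (fun z' => z'.2) (fun σ z i => rfl) (c, y) hy
  simp only at h1 h2 h3
  rw [← h1, ← h2]
  have hsplit : ∀ v, ∀ z' ∈ orbit Γ ((c, y) : Qb × (κ → Qb)),
      Real.log (⨆ i, W v ((z'.1 • z'.2) i)) =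
        Real.log (W v z'.1) + Real.log (⨆ i, W v (z'.2 i)) := by
    rintro v _ ⟨σ, rfl⟩
    have hc' : W v (σ c) ≠ 0 := (W v).ne_zero ((map_ne_zero σ).mpr hc)
    have hy' : (σ • y) ≠ 0 := by
      intro h0
      apply hy
      funext i
      have := congrFun h0 i
      rw [htga_smul_apply] at this
      exact (map_eq_zero_iff σ σ.injective).mp this
    show Real.log (⨆ i, W v (σ c * (σ • y) i)) =
      Real.log (W v (σ c)) + Real.log (⨆ i, W v ((σ • y) i))
    have : (⨆ i, W v (σ c * (σ • y) i)) = W v (σ c) * ⨆ i, W v ((σ • y) i) := by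
      simp only [map_mul]
      rw [Real.mul_iSup_of_nonneg ((W v).nonneg _)]
    rw [this, Real.log_mul hc' (htga_iSup_pos hy').ne']
  rw [htgaAvg_congr hsplit, htgaAvg_add hf1 hf2, h3, zero_add]

/-- passing to a sub-tuple does not increase the height. -/
theorem HtgaSys.ht_comp_le (S : HtgaSys W) (f : κ' → κ) (y : κ → Qb) (h : y ∘ f ≠ 0) :
    htgaHt W (y ∘ f) ≤ htgaHt W y := by
  have hy : y ≠ 0 := by
    rintro rfl
    exact h rfl
  have hfin := htga_orbit_tuple_finite y
  have h1 := htgaHt_eq_avg (W := W) (Z := κ → Qb) (fun y' => y' ∘ f) (fun σ z i => rfl) hfin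
  rw [← h1]
  have hf1 := S.fin_log_sup (Z := κ → Qb) (fun y' => y' ∘ f) (fun σ z i => rfl) y h
  have hf2 := S.fin_ht y hy
  have := htgaAvg_mono hfin hf1 hf2 (c := fun _ => 0) (Set.finite_empty.subset (by simp))
    (fun v y' hy' => by
      obtain ⟨σ, rfl⟩ := hy'
      have hne : (σ • y) ∘ f ≠ 0 := by
        intro h0
        apply h
        funext i
        have := congrFun h0 i
        simp only [Function.comp_apply, htga_smul_apply, Pi.zero_apply] at this
        exact (map_eq_zero_iff σ σ.injective).mp this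
      rw [add_zero]
      refine Real.log_le_log (htga_iSup_pos hne) ?_
      have : Nonempty κ' := by
        obtain ⟨i, -⟩ := Function.ne_iff.mp hne
        exact ⟨i⟩
      exact ciSup_le fun j => Finite.le_ciSup (fun i => W v ((σ • y) i)) (f j))
  have h0 : ∑ᶠ _ : Pl, (0 : ℝ) = 0 := finsum_zero
  rw [h0, add_zero] at this
  exact this

end Height

/-! ### the height of a number -/

section Scalar

variable (W) in
/-- the absolute logarithmic height of an algebraic number, with respect to the place system. -/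
def htgaHt₁ (a : Qb) : ℝ :=
  htgaAvg Γ (fun v b => Real.posLog (W v b)) a

theorem htgaHt₁_nonneg (a : Qb) : 0 ≤ htgaHt₁ W a :=
  htgaAvg_nonneg fun _ _ _ => Real.posLog_nonneg

theorem HtgaSys.fin_ht₁ (S : HtgaSys W) (a : Qb) :
    HtgaFin Γ (fun v (b : Qb) => Real.posLog (W v b)) a := by
  rcases eq_or_ne a 0 with rfl | ha
  · rintro _ ⟨σ, rfl⟩
    have : (fun v => Real.posLog (W v (σ • (0 : Qb)))) = fun _ => 0 := by
      funext v
      rw [smul_zero, map_zero, Real.posLog_zero]
    rw [this]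
    exact Function.hasFiniteSupport_zero
  · rintro _ ⟨σ, rfl⟩
    refine (S.fs a ha).subset ?_
    intro v hv
    rw [Function.mem_support] at hv
    refine ⟨σ, fun h => hv ?_⟩
    show Real.posLog (W v (σ a)) = 0
    rw [h, Real.posLog_one]

variable {κ : Type*} [Finite κ]

/-- an affine coordinate is bounded by the height of the tuple. -/
theorem HtgaSys.ht₁_le_ht (S : HtgaSys W) (y : κ → Qb) (i i₀ : κ) (h : y i₀ = 1) :
    htgaHt₁ W (y i) ≤ htgaHt W y := by
  have hy : y ≠ 0 := by
    intro h0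
    rw [h0] at h
    exact zero_ne_one h
  have hfin := htga_orbit_tuple_finite y
  have h1 := htgaAvg_proj (G := Γ) (fun v (b : Qb) => Real.posLog (W v b))
    (fun y' : κ → Qb => y' i) (fun σ z => rfl) hfin
  rw [htgaHt₁, ← h1]
  have hf1 : HtgaFin Γ (fun v (y' : κ → Qb) => Real.posLog (W v (y' i))) y :=
    HtgaFin.proj (π := fun y' : κ → Qb => y' i) (fun σ z => rfl) (S.fin_ht₁ (y i))
  have hf2 := S.fin_ht y hy
  have := htgaAvg_mono hfin hf1 hf2 (c := fun _ => 0) (Set.finite_empty.subset (by simp))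
    (fun v y' hy' => by
      obtain ⟨σ, rfl⟩ := hy'
      rw [add_zero]
      have h1 : W v ((σ • y) i₀) = 1 := by
        rw [htga_smul_apply, h, map_one, map_one]
      have hsup1 : 1 ≤ ⨆ j, W v ((σ • y) j) := by
        rw [← h1]
        exact Finite.le_ciSup (fun j => W v ((σ • y) j)) i₀
      rw [Real.posLog_apply]
      refine max_le (Real.log_nonneg hsup1) ?_
      rcases eq_or_ne (W v ((σ • y) i)) 0 with h0 | h0
      · rw [h0, Real.log_zero]
        exact Real.log_nonneg hsup1
      · exact Real.log_le_log (lt_of_le_of_ne ((W v).nonneg _) (Ne.symm h0))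
          (Finite.le_ciSup (fun j => W v ((σ • y) j)) i))
  have h0 : ∑ᶠ _ : Pl, (0 : ℝ) = 0 := finsum_zero
  rw [h0, add_zero] at this
  exact this

end Scalar

/-! ### constants -/

/-- for a finite set of algebraic numbers, `∏ max 1 (W v c)` is `1` at almost all places. -/
theorem HtgaSys.fin_prod_max (S : HtgaSys W) (cs : Finset Qb) :
    {v | ∏ c ∈ cs, max 1 (W v c) ≠ 1}.Finite := by
  have hT : (⋃ c ∈ {c | c ∈ cs ∧ c ≠ 0}, {v | ∃ σ : Γ, W v (σ c) ≠ 1}).Finite :=
    Set.Finite.biUnion (cs.finite_toSet.subset fun c hc => hc.1) fun c hc => S.fs c hc.2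
  refine hT.subset ?_
  intro v hv
  by_contra hnot
  apply hv
  refine Finset.prod_eq_one fun c hc => ?_
  rcases eq_or_ne c 0 with rfl | hc0
  · rw [map_zero]
    exact max_eq_left zero_le_one
  · have : W v c = 1 := by
      by_contra h1
      apply hnot
      refine Set.mem_biUnion (x := c) ⟨hc, hc0⟩ ⟨1, ?_⟩
      simpa using h1
    rw [this, max_self]

end Fermat.Agent.HT
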