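import Fermat.Agent.HT.Glob.Product
import Fermat.Agent.HT.Glob.Sys

/-!
# Program MW (S17), heights half, global layer: the fixed places form a place system

Owner: helper22.  Prefix `htg`.  Bridges `HT/Glob/Places.lean` + `HT/Glob/Product.lean`
(the concrete places `htgAbs : Option Nat.Primes → AbsoluteValue Q̄ ℝ`) to helper23's abstract
`HtgaSys W` of `HT/Glob/Sys.lean`: finite support and the product formula on Galois orbits.

* `htgPlaces_sys : HtgaSys (fun v : Option Nat.Primes => htgAbs v)`.
-/

set_option autoImplicit false

namespace Fermat.Agent.HT

open MulAction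

/-- the fixed places `htgAbs v` of `Q̄` (one above each place of `ℚ`) form a place system. -/
theorem htgPlaces_sys : HtgaSys (fun v : Option Nat.Primes => htgAbs v) where
  fs := by
    intro a ha
    have h := htg_finite_support ha
    refine Set.Finite.subset ((h.image some).union (Set.finite_singleton none)) ?_
    rintro (_ | p) hv
    · right
      rfl
    · left
      exact ⟨p, hv, rfl⟩
  pf := by
    intro a ha
    have hfin := htga_orbit_finite a
    refine htg_product_formula_orbit' (α := HtgQb) (htgaOrb _ a) ?_ (fun b => b) ?_ ?_
    · intro σ z hz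
      rw [mem_htgaOrb hfin] at hz ⊢
      exact MulAction.mem_orbit_of_mem_orbit σ hz
    · intro σ z _
      rfl
    · intro z hz
      rw [mem_htgaOrb hfin] at hz
      obtain ⟨σ, rfl⟩ := hz
      show σ a ≠ 0
      exact (map_ne_zero_iff σ σ.injective).mpr ha

end Fermat.Agent.HT
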