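import Fermat.Agent.HT.Glob.Product

/-!
# Program MW (S17), heights half, global layer (D3): Galois orbits of tuples

Owner: helper22.  Prefix `htg`.

* `htgOrbit z : Finset (ι → Qb)` : the (finite) `Gal(Qb/ℚ)`-orbit of a tuple `z : ι → Qb`,
  `mem_htgOrbit : y ∈ htgOrbit z ↔ ∃ σ : Qb ≃ₐ[ℚ] Qb, y = fun i => σ (z i)`;
* `htg_product_formula_tuple` : the product formula over `htgOrbit z` for an equivariant function.
-/

set_option autoImplicit false

namespace Fermat.Agent.HT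

variable {ι : Type*}

/-- the Galois orbit of a tuple, as a set -/
def htgOrbitSet (z : ι → HtgQb) : Set (ι → HtgQb) :=
  {y | ∃ σ : HtgQb ≃ₐ[ℚ] HtgQb, y = fun i => σ (z i)}

theorem htgOrbitSet_finite [Finite ι] (z : ι → HtgQb) : (htgOrbitSet z).Finite := by
  have hfin : ∀ i, {a : HtgQb | Polynomial.aeval a (minpoly ℚ (z i)) = 0}.Finite := by
    intro i
    have hne : minpoly ℚ (z i) ≠ 0 := minpoly.ne_zero (Algebra.IsIntegral.isIntegral (z i))
    have h := Polynomial.rootSet_finite (minpoly ℚ (z i)) HtgQb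
    refine h.subset ?_
    intro a ha
    rw [Polynomial.mem_rootSet]
    exact ⟨hne, ha⟩
  refine (Set.Finite.pi' hfin).subset ?_
  rintro y ⟨σ, rfl⟩ i
  show Polynomial.aeval (σ (z i)) (minpoly ℚ (z i)) = 0
  rw [Polynomial.aeval_algEquiv, AlgHom.comp_apply, minpoly.aeval]
  simp

/-- the Galois orbit of a tuple -/
noncomputable def htgOrbit [Finite ι] (z : ι → HtgQb) : Finset (ι → HtgQb) :=
  (htgOrbitSet_finite z).toFinset

theorem mem_htgOrbit [Finite ι] {z y : ι → HtgQb} :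
    y ∈ htgOrbit z ↔ ∃ σ : HtgQb ≃ₐ[ℚ] HtgQb, y = fun i => σ (z i) := by
  unfold htgOrbit
  rw [Set.Finite.mem_toFinset]
  rfl

theorem self_mem_htgOrbit [Finite ι] (z : ι → HtgQb) : z ∈ htgOrbit z :=
  mem_htgOrbit.mpr ⟨1, rfl⟩

theorem htgOrbit_nonempty [Finite ι] (z : ι → HtgQb) : (htgOrbit z).Nonempty :=
  ⟨z, self_mem_htgOrbit z⟩

theorem htgOrbit_card_pos [Finite ι] (z : ι → HtgQb) : 0 < (htgOrbit z).card :=
  Finset.card_pos.mpr (htgOrbit_nonempty z)

theorem map_mem_htgOrbit [Finite ι] {z y : ι → HtgQb} (hy : y ∈ htgOrbit z)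
    (σ : HtgQb ≃ₐ[ℚ] HtgQb) : (fun i => σ (y i)) ∈ htgOrbit z := by
  obtain ⟨τ, rfl⟩ := mem_htgOrbit.mp hy
  exact mem_htgOrbit.mpr ⟨σ * τ, rfl⟩

/-- the orbit for the Mathlib action of the Galois group on tuples -/
theorem htgOrbitSet_eq_orbit (z : ι → HtgQb) :
    htgOrbitSet z = MulAction.orbit (HtgQb ≃ₐ[ℚ] HtgQb) z := by
  ext y
  constructor
  · rintro ⟨σ, rfl⟩
    exact ⟨σ, rfl⟩
  · rintro ⟨σ, rfl⟩
    exact ⟨σ, rfl⟩

theorem htg_orbit_finite [Finite ι] (z : ι → HtgQb) :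
    (MulAction.orbit (HtgQb ≃ₐ[ℚ] HtgQb) z).Finite := by
  rw [← htgOrbitSet_eq_orbit]
  exact htgOrbitSet_finite z

theorem coe_htgOrbit [Finite ι] (z : ι → HtgQb) :
    (htgOrbit z : Set (ι → HtgQb)) = MulAction.orbit (HtgQb ≃ₐ[ℚ] HtgQb) z := by
  rw [← htgOrbitSet_eq_orbit]
  unfold htgOrbit
  exact Set.Finite.coe_toFinset _

theorem smul_tuple_apply (σ : HtgQb ≃ₐ[ℚ] HtgQb) (z : ι → HtgQb) (i : ι) :
    (σ • z) i = σ (z i) := rfl

/-- orbits of conjugate tuples coincide -/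
theorem htgOrbit_map [Finite ι] (z : ι → HtgQb) (σ : HtgQb ≃ₐ[ℚ] HtgQb) :
    htgOrbit (fun i => σ (z i)) = htgOrbit z := by
  ext y
  rw [mem_htgOrbit, mem_htgOrbit]
  constructor
  · rintro ⟨τ, rfl⟩
    exact ⟨τ * σ, rfl⟩
  · rintro ⟨τ, rfl⟩
    refine ⟨τ * σ⁻¹, ?_⟩
    funext i
    show τ (z i) = τ (σ⁻¹ (σ (z i)))
    rw [show σ⁻¹ (σ (z i)) = z i from σ.symm_apply_apply (z i)]

theorem htgOrbit_eq_of_mem [Finite ι] {z y : ι → HtgQb} (hy : y ∈ htgOrbit z) :
    htgOrbit y = htgOrbit z := by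
  obtain ⟨τ, rfl⟩ := mem_htgOrbit.mp hy
  exact htgOrbit_map z τ

/-- a Galois-fixed tuple (e.g. a rational one) has a one-point orbit -/
theorem htgOrbit_eq_singleton [Finite ι] {z : ι → HtgQb}
    (hz : ∀ (σ : HtgQb ≃ₐ[ℚ] HtgQb) (i : ι), σ (z i) = z i) : htgOrbit z = {z} := by
  ext y
  rw [mem_htgOrbit, Finset.mem_singleton]
  constructor
  · rintro ⟨σ, rfl⟩
    funext i
    exact hz σ i
  · rintro rfl
    exact ⟨1, rfl⟩

/-- sums over an orbit are invariant under conjugating the summand -/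
theorem htgOrbit_sum_map [Finite ι] {M : Type*} [AddCommMonoid M] (z : ι → HtgQb)
    (σ : HtgQb ≃ₐ[ℚ] HtgQb) (f : (ι → HtgQb) → M) :
    ∑ y ∈ htgOrbit z, f (fun i => σ (y i)) = ∑ y ∈ htgOrbit z, f y := by
  refine Finset.sum_bij' (fun y _ => fun i => σ (y i)) (fun y _ => fun i => σ⁻¹ (y i))
    (fun y hy => map_mem_htgOrbit hy σ) (fun y hy => map_mem_htgOrbit hy σ⁻¹) ?_ ?_ (fun _ _ => rfl)
  · intro y _
    funext i
    exact σ.symm_apply_apply (y i)
  · intro y _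
    funext i
    exact σ.apply_symm_apply (y i)

/-- **The product formula over the Galois orbit of a tuple**: `a` a nowhere vanishing function on
the orbit with `a (σ ∘ y) = σ (a y)`. -/
theorem htg_product_formula_tuple [Finite ι] (z : ι → HtgQb) (a : (ι → HtgQb) → HtgQb)
    (ha : ∀ (σ : HtgQb ≃ₐ[ℚ] HtgQb), ∀ y ∈ htgOrbit z, a (fun i => σ (y i)) = σ (a y))
    (h0 : ∀ y ∈ htgOrbit z, a y ≠ 0) :
    ∑ᶠ v : Option Nat.Primes, ∑ y ∈ htgOrbit z, Real.log (htgAbs v (a y)) = 0 :=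
  htg_product_formula_orbit' (α := ι → HtgQb) (htgOrbit z)
    (fun σ y hy => map_mem_htgOrbit hy σ) a (fun σ y hy => ha σ y hy) h0

/-- the same with the places inside -/
theorem htg_product_formula_tuple' [Finite ι] (z : ι → HtgQb) (a : (ι → HtgQb) → HtgQb)
    (ha : ∀ (σ : HtgQb ≃ₐ[ℚ] HtgQb), ∀ y ∈ htgOrbit z, a (fun i => σ (y i)) = σ (a y))
    (h0 : ∀ y ∈ htgOrbit z, a y ≠ 0) :
    ∑ y ∈ htgOrbit z, ∑ᶠ v : Option Nat.Primes, Real.log (htgAbs v (a y)) = 0 :=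
  htg_product_formula_orbit (α := ι → HtgQb) (htgOrbit z)
    (fun σ y hy => map_mem_htgOrbit hy σ) a (fun σ y hy => ha σ y hy) h0

/-- the conjugates of an element of `Qb` all appear as first coordinates of the orbit of a tuple
containing it: the degree bound used by Northcott. -/
theorem htgOrbit_card_le [Finite ι] [Fintype ι] (z : ι → HtgQb) :
    (htgOrbit z).card ≤ ∏ i, (minpoly ℚ (z i)).natDegree := by
  classical
  have hsub : htgOrbit z ⊆ Fintype.piFinset fun i => ((minpoly ℚ (z i)).aroots HtgQb).toFinset := by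
    intro y hy
    obtain ⟨σ, rfl⟩ := mem_htgOrbit.mp hy
    rw [Fintype.mem_piFinset]
    intro i
    rw [Multiset.mem_toFinset, Polynomial.mem_aroots]
    refine ⟨minpoly.ne_zero (Algebra.IsIntegral.isIntegral (z i)), ?_⟩
    rw [Polynomial.aeval_algEquiv, AlgHom.comp_apply, minpoly.aeval]
    simp
  refine (Finset.card_le_card hsub).trans ?_
  rw [Fintype.card_piFinset]
  refine Finset.prod_le_prod' fun i _ => ?_
  refine (Multiset.toFinset_card_le _).trans ?_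
  exact (Polynomial.card_roots' _).trans (by rw [Polynomial.natDegree_map])

end Fermat.Agent.HT
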