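import Fermat.Agent.HT.Glob.Product
import Fermat.Agent.HT.Loc

/-!
# Program MW (S17), heights half, global layer (D3): the fixed places as admissible absolute values

Owner: helper22.  Prefix `htg`.  Blueprint S17-heights §6, first block.

* `HtPl := Option Nat.Primes`, `htgW : HtPl → HtAbs Qb` (helper13's `HtAbs`), `htgW_apply`;
* `htgW_rat_none`, `htgW_rat_some`, `htgW_nonarch`, `htgW_not_nonarch`;
* `htg_support` (= `htg_finite_support` for `htgW`);
* `htg_const_support (C : HtConst Qb) : {p | C.val (htgW (some p)) ≠ 1}.Finite`,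
  `htg_const_log_support`, so that `∑ᶠ v, log (C.val (htgW v))` is a finite sum.
-/

set_option autoImplicit false

namespace Fermat.Agent.HT

/-- the places of `ℚ` -/
abbrev HtPl : Type := Option Nat.Primes

/-- the fixed extensions `w_v` of the places of `ℚ` to `Qb`, as admissible absolute values -/
noncomputable def htgW : HtPl → HtAbs HtgQb
  | none => ⟨htgAbs none, Or.inr ⟨htgEmbC.toRingHom, fun _ => rfl⟩⟩
  | some p => ⟨htgAbs (some p), Or.inl (htgAbs_nonarch p)⟩

@[simp] theorem htgW_val (v : HtPl) : (htgW v).1 = htgAbs v := by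
  cases v <;> rfl

theorem htgW_apply (v : HtPl) (a : HtgQb) : htgW v a = htgAbs v a := by
  cases v <;> rfl

theorem htgW_rat_none (q : ℚ) : htgW none (algebraMap ℚ HtgQb q) = |(q : ℝ)| := by
  rw [htgW_apply, htgAbs_ratCast_none]

theorem htgW_rat_some (p : Nat.Primes) (q : ℚ) :
    htgW (some p) (algebraMap ℚ HtgQb q) = (padicNorm p q : ℝ) := by
  rw [htgW_apply, htgAbs_ratCast_some]

theorem htgW_nonarch (p : Nat.Primes) : IsNonarchimedean (htgW (some p)).1 :=
  htgAbs_nonarch p

/-- the archimedean place is not nonarchimedean -/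
theorem htgW_not_nonarch : ¬ IsNonarchimedean (htgW none).1 := by
  intro h
  have h2 : htgAbs none ((2 : ℕ) : HtgQb) ≤ 1 := h.apply_natCast_le_one
  have h3 : ((2 : ℕ) : HtgQb) = algebraMap ℚ HtgQb 2 := by simp
  rw [h3, htgAbs_ratCast_none] at h2
  norm_num at h2

theorem htg_support (a : HtgQb) (ha : a ≠ 0) :
    {p : Nat.Primes | ∃ σ : HtgQb ≃ₐ[ℚ] HtgQb, htgW (some p) (σ a) ≠ 1}.Finite := by
  simpa only [htgW_apply] using htg_finite_support ha

/-- a local constant is `1` at almost all finite places -/
theorem htg_const_support (C : HtConst HtgQb) :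
    {p : Nat.Primes | C.val (htgW (some p)).1 ≠ 1}.Finite := by
  classical
  have hsub : {p : Nat.Primes | C.val (htgW (some p)).1 ≠ 1} ⊆
      ⋃ c ∈ C.cs.filter (· ≠ 0),
        {p : Nat.Primes | ∃ σ : HtgQb ≃ₐ[ℚ] HtgQb, htgAbs (some p) (σ c) ≠ 1} := by
    intro p hp
    by_contra hnot
    apply hp
    rw [htgW_val, HtConst.val, if_pos (htgAbs_nonarch p), one_mul]
    have h1 : ∏ c ∈ C.cs, max 1 (htgAbs (some p) c) = 1 := by
      apply Finset.prod_eq_one
      intro c hc
      by_cases hc0 : c = 0
      · rw [hc0, map_zero]; simp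
      · have : htgAbs (some p) c = 1 := by
          by_contra hne
          apply hnot
          simp only [Set.mem_iUnion]
          exact ⟨c, Finset.mem_filter.mpr ⟨hc, hc0⟩, 1, hne⟩
        rw [this]; simp
    rw [h1, one_pow]
  refine Set.Finite.subset ?_ hsub
  refine Set.Finite.biUnion (Finset.finite_toSet _) ?_
  intro c hc
  exact htg_finite_support (Finset.mem_filter.mp hc).2

/-- the sum `c(C) = ∑ᶠ v, log (C.val (w_v))` is a finite sum -/
theorem htg_const_log_support (C : HtConst HtgQb) :
    (Function.support fun v : HtPl => Real.log (C.val (htgW v).1)).Finite := by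
  refine Set.Finite.subset (((htg_const_support C).image some).union (Set.finite_singleton none)) ?_
  intro v hv
  rw [Function.mem_support] at hv
  cases v with
  | none => right; rfl
  | some p =>
    left
    refine ⟨p, ?_, rfl⟩
    intro h1
    apply hv
    rw [h1, Real.log_one]

/-- `c(C)` : the global constant attached to a local constant -/
noncomputable def htgConst (C : HtConst HtgQb) : ℝ := ∑ᶠ v : HtPl, Real.log (C.val (htgW v).1)

theorem htgConst_nonneg (C : HtConst HtgQb) : 0 ≤ htgConst C :=
  finsum_nonneg fun v => Real.log_nonneg (htl_one_le_val C _)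

end Fermat.Agent.HT
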