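import Mathlib
import Fermat.Agent.HT.Glob.Sys
import Fermat.Agent.HT.Glob.W
import Fermat.Agent.HT.Glob.TupleOrbit
import Fermat.Agent.HT.Glob.SysInst

/-!
# Program MW (S17), global layer (D3'') : the global sum `htgSum`, heights, local-to-global

Blueprint S17-heights §6 in the final shape of helper16's ruling 3266 (1) : the orbit average is
taken over the conjugates of a tuple of VALUES `a : κ → Q̄`, and the local function
`Φ : (κ → ℝ) → ℝ` only sees the absolute values of the entries :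

  `htgSum Φ a = (∑ a' ∈ htgOrbit a, ∑ᶠ v, Φ (fun k => htgW v (a' k))) / #(htgOrbit a)`.

* `htgSys` : helper22's places `htgAbs` form a place system (`HtgaSys`, `Glob/SysInst.lean`);
* `HtgFin Φ a` : finiteness side condition, `htgFin_of_indicator` : it holds as soon as `Φ` vanishes
  at the `0/1`-indicator of the support of `a`; closure under `+`, `-`, scalars, finite sums;
* linearity `htgSum_add`, …, sub-tuples `htgSum_comp`, product formula `htg_product_formula`;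
* `htgHt`, `htgHt_smul`, `htgHt_nonneg_of_one`, `htgHt_comp_le`, `htgHt₁`, `htgHt₁_le_htgHt`;
* **local-to-global** `htg_mono'`, `htg_abs_sub_le` : a local inequality for the ORIGINAL tuple and
  ALL admissible absolute values `w : HtAbs Q̄`, with a local constant `C : HtConst Q̄`, gives the
  global inequality with the constant `htgC C`.
-/

set_option autoImplicit false
set_option linter.unusedSectionVars false

noncomputable section

namespace Fermat.Agent.HT

open MulAction Function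

local notation "Γ" => HtgQb ≃ₐ[ℚ] HtgQb

/-! ### the place system -/

/-- helper22's fixed places of `Q̄` form a place system (`HT/Glob/SysInst.lean`). -/
theorem htgSys : HtgaSys htgAbs := htgPlaces_sys

variable {κ κ' : Type*} [Finite κ] [Finite κ']

theorem htgaOrb_eq_htgOrbit (a : κ → HtgQb) : htgaOrb Γ a = htgOrbit a := by
  ext y
  rw [mem_htgaOrb_tuple, mem_htgOrbit]

/-! ### the global sum -/

/-- **the global sum** of the local function `Φ` at the tuple `a`. -/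
def htgSum (Φ : (κ → ℝ) → ℝ) (a : κ → HtgQb) : ℝ :=
  htgaAvg Γ (fun v a' => Φ (fun k => htgAbs v (a' k))) a

/-- the finiteness side condition : at every conjugate of `a`, the local terms vanish at almost
all places. -/
def HtgFin (Φ : (κ → ℝ) → ℝ) (a : κ → HtgQb) : Prop :=
  HtgaFin Γ (fun v a' => Φ (fun k => htgAbs v (a' k))) a

/-- the blueprint's formula for `htgSum`. -/
theorem htgSum_eq (Φ : (κ → ℝ) → ℝ) (a : κ → HtgQb) :
    htgSum Φ a =
      (∑ a' ∈ htgOrbit a, ∑ᶠ v, Φ (fun k => htgW v (a' k))) / ((htgOrbit a).card : ℝ) := by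
  rw [htgSum, htgaAvg, htgaOrb_eq_htgOrbit]
  simp only [htgW_apply]

theorem htgSum_conj (Φ : (κ → ℝ) → ℝ) (a : κ → HtgQb) (σ : Γ) :
    htgSum Φ (fun k => σ (a k)) = htgSum Φ a :=
  htgaAvg_smul _ σ a

open scoped Classical in
/-- **criterion for the side condition** : `Φ` vanishes at the indicator of the support of `a`. -/
theorem htgFin_of_indicator (Φ : (κ → ℝ) → ℝ) (a : κ → HtgQb)
    (h : Φ (fun k => if a k = 0 then 0 else 1) = 0) : HtgFin Φ a := by
  have hT : (⋃ k ∈ {k | a k ≠ 0}, {v | ∃ σ : Γ, htgAbs v (σ (a k)) ≠ 1}).Finite :=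
    Set.Finite.biUnion (Set.toFinite _) fun k hk => htgSys.fs (a k) hk
  rintro _ ⟨σ, rfl⟩
  refine hT.subset ?_
  intro v hv
  rw [Function.mem_support] at hv
  by_contra hnot
  apply hv
  have : (fun k => htgAbs v ((σ • a) k)) = fun k => if a k = 0 then (0 : ℝ) else 1 := by
    funext k
    rw [htga_smul_apply]
    split_ifs with hk
    · rw [hk, map_zero, map_zero]
    · by_contra h1
      apply hnot
      exact Set.mem_biUnion (x := k) hk ⟨σ, h1⟩
  show Φ (fun k => htgAbs v ((σ • a) k)) = 0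
  rw [this, h]

theorem HtgFin.add {Φ₁ Φ₂ : (κ → ℝ) → ℝ} {a : κ → HtgQb} (h1 : HtgFin Φ₁ a) (h2 : HtgFin Φ₂ a) :
    HtgFin (fun t => Φ₁ t + Φ₂ t) a :=
  HtgaFin.add h1 h2

theorem HtgFin.sub {Φ₁ Φ₂ : (κ → ℝ) → ℝ} {a : κ → HtgQb} (h1 : HtgFin Φ₁ a) (h2 : HtgFin Φ₂ a) :
    HtgFin (fun t => Φ₁ t - Φ₂ t) a :=
  HtgaFin.sub h1 h2

theorem HtgFin.neg {Φ : (κ → ℝ) → ℝ} {a : κ → HtgQb} (h : HtgFin Φ a) :
    HtgFin (fun t => -Φ t) a :=
  HtgaFin.neg h

theorem HtgFin.const_mul {Φ : (κ → ℝ) → ℝ} {a : κ → HtgQb} (h : HtgFin Φ a) (c : ℝ) :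
    HtgFin (fun t => c * Φ t) a :=
  HtgaFin.const_mul h c

theorem HtgFin.finset_sum {α : Type*} {s : Finset α} {Φ : α → (κ → ℝ) → ℝ} {a : κ → HtgQb}
    (h : ∀ i ∈ s, HtgFin (Φ i) a) : HtgFin (fun t => ∑ i ∈ s, Φ i t) a :=
  HtgaFin.finset_sum h

theorem HtgFin.comp {Φ : (κ' → ℝ) → ℝ} {a : κ → HtgQb} (f : κ' → κ) (h : HtgFin Φ (a ∘ f)) :
    HtgFin (fun t => Φ (t ∘ f)) a :=
  HtgaFin.proj (π := fun a' : κ → HtgQb => a' ∘ f) (fun _ _ => rfl) h

/-! ### linearity, sub-tuples -/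

theorem htgSum_add {Φ₁ Φ₂ : (κ → ℝ) → ℝ} {a : κ → HtgQb} (h1 : HtgFin Φ₁ a) (h2 : HtgFin Φ₂ a) :
    htgSum (fun t => Φ₁ t + Φ₂ t) a = htgSum Φ₁ a + htgSum Φ₂ a :=
  htgaAvg_add h1 h2

theorem htgSum_sub {Φ₁ Φ₂ : (κ → ℝ) → ℝ} {a : κ → HtgQb} (h1 : HtgFin Φ₁ a) (h2 : HtgFin Φ₂ a) :
    htgSum (fun t => Φ₁ t - Φ₂ t) a = htgSum Φ₁ a - htgSum Φ₂ a :=
  htgaAvg_sub h1 h2

theorem htgSum_neg (Φ : (κ → ℝ) → ℝ) (a : κ → HtgQb) :
    htgSum (fun t => -Φ t) a = -htgSum Φ a :=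
  htgaAvg_neg _ a

theorem htgSum_const_mul (Φ : (κ → ℝ) → ℝ) (a : κ → HtgQb) (c : ℝ) :
    htgSum (fun t => c * Φ t) a = c * htgSum Φ a :=
  htgaAvg_const_mul _ a c

theorem htgSum_zero (a : κ → HtgQb) : htgSum (fun _ => (0 : ℝ)) a = 0 :=
  htgaAvg_zero a

theorem htgSum_finset_sum {α : Type*} {s : Finset α} {Φ : α → (κ → ℝ) → ℝ} {a : κ → HtgQb}
    (h : ∀ i ∈ s, HtgFin (Φ i) a) :
    htgSum (fun t => ∑ i ∈ s, Φ i t) a = ∑ i ∈ s, htgSum (Φ i) a :=
  htgaAvg_finset_sum h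

/-- the global sum only depends on the values of `Φ` at the local tuples of the conjugates. -/
theorem htgSum_congr {Φ Φ' : (κ → ℝ) → ℝ} {a : κ → HtgQb}
    (h : ∀ (v : Option Nat.Primes) (σ : Γ),
      Φ (fun k => htgAbs v (σ (a k))) = Φ' (fun k => htgAbs v (σ (a k)))) :
    htgSum Φ a = htgSum Φ' a := by
  refine htgaAvg_congr ?_
  rintro v _ ⟨σ, rfl⟩
  exact h v σ

/-- **sub-tuples** : a local function of a sub-tuple. -/
theorem htgSum_comp (Φ : (κ' → ℝ) → ℝ) (f : κ' → κ) (a : κ → HtgQb) :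
    htgSum (fun t => Φ (t ∘ f)) a = htgSum Φ (a ∘ f) :=
  htgaAvg_proj (G := Γ) (fun v (a' : κ' → HtgQb) => Φ (fun k => htgAbs v (a' k)))
    (fun a' : κ → HtgQb => a' ∘ f) (fun _ _ => rfl) (htga_orbit_tuple_finite a)

/-! ### the product formula -/

theorem htgFin_log (a : κ → HtgQb) (k : κ) (hk : a k ≠ 0) :
    HtgFin (fun t => Real.log (t k)) a :=
  htgSys.fin_log (Z := κ → HtgQb) (fun z => z k) (fun _ _ => rfl) a hk

/-- **product formula** : for an entry `a k ≠ 0`. -/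
theorem htg_product_formula (a : κ → HtgQb) (k : κ) (hk : a k ≠ 0) :
    htgSum (fun t => Real.log (t k)) a = 0 :=
  htgSys.avg_log (Z := κ → HtgQb) (fun z => z k) (fun _ _ => rfl) (htga_orbit_tuple_finite a) hk

theorem htgFin_log_sup (a : κ → HtgQb) (f : κ' → κ) (h : a ∘ f ≠ 0) :
    HtgFin (fun t => Real.log (⨆ j, t (f j))) a :=
  htgSys.fin_log_sup (Z := κ → HtgQb) (fun z => z ∘ f) (fun _ _ _ => rfl) a h

theorem htgFin_posLog (a : κ → HtgQb) (k : κ) : HtgFin (fun t => Real.posLog (t k)) a :=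
  HtgaFin.proj (π := fun a' : κ → HtgQb => a' k) (fun _ _ => rfl) (htgSys.fin_ht₁ (a k))

/-! ### heights -/

/-- the absolute logarithmic height of a tuple (projective height if `y ≠ 0`). -/
def htgHt (y : κ → HtgQb) : ℝ := htgSum (fun t => Real.log (⨆ k, t k)) y

theorem htgHt_eq (y : κ → HtgQb) : htgHt y = htgaHt htgAbs y := rfl

theorem htgFin_ht (y : κ → HtgQb) (hy : y ≠ 0) : HtgFin (fun t => Real.log (⨆ k, t k)) y :=
  htgSys.fin_ht y hy

theorem htgHt_smul (y : κ → HtgQb) {c : HtgQb} (hc : c ≠ 0) : htgHt (c • y) = htgHt y :=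
  htgSys.ht_smul y hc

theorem htgHt_nonneg_of_one (y : κ → HtgQb) (i₀ : κ) (h : y i₀ = 1) : 0 ≤ htgHt y :=
  htgaHt_nonneg_of_one y i₀ h

theorem htgHt_comp_le (f : κ' → κ) (y : κ → HtgQb) (h : y ∘ f ≠ 0) :
    htgHt (y ∘ f) ≤ htgHt y :=
  htgSys.ht_comp_le f y h

theorem htgHt_conj (y : κ → HtgQb) (σ : Γ) : htgHt (fun k => σ (y k)) = htgHt y :=
  htgSum_conj _ y σ

/-- the height of a sub-tuple as a global sum over the big tuple. -/
theorem htgSum_log_sup (a : κ → HtgQb) (f : κ' → κ) :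
    htgSum (fun t => Real.log (⨆ j, t (f j))) a = htgHt (a ∘ f) :=
  htgSum_comp (fun t => Real.log (⨆ j, t j)) f a

/-- the absolute logarithmic height of an algebraic number. -/
def htgHt₁ (a : HtgQb) : ℝ := htgaHt₁ htgAbs a

theorem htgHt₁_nonneg (a : HtgQb) : 0 ≤ htgHt₁ a := htgaHt₁_nonneg a

theorem htgHt₁_le_htgHt (y : κ → HtgQb) (i i₀ : κ) (h : y i₀ = 1) : htgHt₁ (y i) ≤ htgHt y :=
  htgSys.ht₁_le_ht y i i₀ h

theorem htgSum_posLog (a : κ → HtgQb) (k : κ) :
    htgSum (fun t => Real.posLog (t k)) a = htgHt₁ (a k) :=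
  htgaAvg_proj (G := Γ) (fun v (b : HtgQb) => Real.posLog (htgAbs v b))
    (fun a' : κ → HtgQb => a' k) (fun _ _ => rfl) (htga_orbit_tuple_finite a)

/-! ### local-to-global -/

/-- the conjugate `w_v ∘ σ` of a fixed place, as an admissible absolute value. -/
def htgConjAbs (v : Option Nat.Primes) (σ : Γ) : HtAbs HtgQb :=
  ⟨(htgAbs v).comp (f := (σ : HtgQb →+* HtgQb)) σ.injective, by
    cases v with
    | none => exact Or.inr ⟨htgEmbC.toRingHom.comp (σ : HtgQb →+* HtgQb), fun _ => rfl⟩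
    | some p =>
      refine Or.inl fun x y => ?_
      show htgAbs (some p) (σ (x + y)) ≤ max (htgAbs (some p) (σ x)) (htgAbs (some p) (σ y))
      rw [map_add]
      exact htgAbs_nonarch p _ _⟩

theorem htgConjAbs_apply (v : Option Nat.Primes) (σ : Γ) (x : HtgQb) :
    htgConjAbs v σ x = htgAbs v (σ x) := rfl

theorem htgConjAbs_nonarch_iff (v : Option Nat.Primes) (σ : Γ) :
    IsNonarchimedean (htgConjAbs v σ).1 ↔ IsNonarchimedean (htgAbs v) := by
  constructor
  · intro h x y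
    have := h (σ.symm x) (σ.symm y)
    have e : ∀ z, (htgConjAbs v σ).1 (σ.symm z) = htgAbs v z := fun z => by
      show htgAbs v (σ (σ.symm z)) = htgAbs v z
      rw [AlgEquiv.apply_symm_apply]
    rwa [← map_add, e, e, e] at this
  · intro h x y
    show htgAbs v (σ (x + y)) ≤ max (htgAbs v (σ x)) (htgAbs v (σ y))
    rw [map_add]
    exact h _ _

open scoped Classical in
/-- the local constant with all conjugates of its elements. -/
def htgConj (C : HtConst HtgQb) : HtConst HtgQb :=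
  ⟨C.cs.biUnion fun c => htgaOrb Γ c, C.M, C.k⟩

/-- the global constant attached to a local constant. -/
def htgC (C : HtConst HtgQb) : ℝ := htgConst (htgConj C)

theorem htgC_nonneg (C : HtConst HtgQb) : 0 ≤ htgC C := htgConst_nonneg _

open scoped Classical in
theorem htg_val_conj_le (C : HtConst HtgQb) (v : Option Nat.Primes) (σ : Γ) :
    C.val (htgConjAbs v σ).1 ≤ (htgConj C).val (htgAbs v) := by
  unfold HtConst.val
  have h1 : (if IsNonarchimedean (htgConjAbs v σ).1 then (1 : ℝ) else ((C.M + 1 : ℕ) : ℝ)) =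
      if IsNonarchimedean (htgAbs v) then (1 : ℝ) else (((htgConj C).M + 1 : ℕ) : ℝ) := by
    simp only [htgConjAbs_nonarch_iff]
    rfl
  rw [h1]
  have h0 : (0 : ℝ) ≤ if IsNonarchimedean (htgAbs v) then (1 : ℝ) else
      (((htgConj C).M + 1 : ℕ) : ℝ) := by
    split_ifs
    · exact zero_le_one
    · exact Nat.cast_nonneg _
  refine mul_le_mul_of_nonneg_left ?_ h0
  show (∏ c ∈ C.cs, max 1 ((htgConjAbs v σ).1 c)) ^ C.k ≤
    (∏ c ∈ (htgConj C).cs, max 1 (htgAbs v c)) ^ C.k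
  refine pow_le_pow_left₀ (le_trans zero_le_one (HtConst.one_le_prod _ _)) ?_ _
  have h2 : ∏ c ∈ C.cs, max 1 ((htgConjAbs v σ).1 c) =
      ∏ c ∈ C.cs.image σ, max 1 (htgAbs v c) := by
    rw [Finset.prod_image fun x _ y _ h => σ.injective h]
    rfl
  rw [h2]
  refine HtConst.prod_mono ?_ _
  intro c hc
  obtain ⟨c₀, hc₀, rfl⟩ := Finset.mem_image.mp hc
  show σ c₀ ∈ C.cs.biUnion fun c => htgaOrb Γ c
  rw [Finset.mem_biUnion]
  exact ⟨c₀, hc₀, (mem_htgaOrb (htga_orbit_finite c₀)).mpr ⟨σ, rfl⟩⟩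

/-- **local-to-global**, conjugate form : it suffices to know the local inequality at the
conjugates `w_v ∘ σ` of the fixed places. -/
theorem htg_mono_conj (C : HtConst HtgQb) {Φ₁ Φ₂ : (κ → ℝ) → ℝ} {a : κ → HtgQb}
    (hf1 : HtgFin Φ₁ a) (hf2 : HtgFin Φ₂ a)
    (h : ∀ (v : Option Nat.Primes) (σ : Γ), Φ₁ (fun k => htgConjAbs v σ (a k)) ≤
      Φ₂ (fun k => htgConjAbs v σ (a k)) + Real.log (C.val (htgConjAbs v σ).1)) :
    htgSum Φ₁ a ≤ htgSum Φ₂ a + htgC C := by
  have hc : HasFiniteSupport fun v : Option Nat.Primes =>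
      Real.log ((htgConj C).val (htgAbs v)) := by
    have := htg_const_log_support (htgConj C)
    simp only [htgW_val] at this
    exact this
  have hC : htgC C = ∑ᶠ v : Option Nat.Primes, Real.log ((htgConj C).val (htgAbs v)) := by
    rw [htgC, htgConst]
    simp only [htgW_val]
  rw [hC]
  refine htgaAvg_mono (htga_orbit_tuple_finite a) hf1 hf2 hc ?_
  rintro v _ ⟨σ, rfl⟩
  refine (h v σ).trans ?_
  refine add_le_add_right ?_ _
  exact Real.log_le_log (htl_val_pos C _) (htg_val_conj_le C v σ)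

/-- **local-to-global** (ruling 3266 (1)) : a local inequality for the ORIGINAL tuple `a` at ALL
admissible absolute values of `Q̄` gives the global inequality. -/
theorem htg_mono' (C : HtConst HtgQb) {Φ₁ Φ₂ : (κ → ℝ) → ℝ} {a : κ → HtgQb}
    (hf1 : HtgFin Φ₁ a) (hf2 : HtgFin Φ₂ a)
    (h : ∀ w : HtAbs HtgQb, Φ₁ (fun k => w (a k)) ≤ Φ₂ (fun k => w (a k)) + Real.log (C.val w.1)) :
    htgSum Φ₁ a ≤ htgSum Φ₂ a + htgC C :=
  htg_mono_conj C hf1 hf2 fun v σ => h (htgConjAbs v σ)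

/-- two-sided local-to-global. -/
theorem htg_abs_sub_le (C : HtConst HtgQb) {Φ₁ Φ₂ : (κ → ℝ) → ℝ} {a : κ → HtgQb}
    (hf1 : HtgFin Φ₁ a) (hf2 : HtgFin Φ₂ a)
    (h : ∀ w : HtAbs HtgQb,
      |Φ₁ (fun k => w (a k)) - Φ₂ (fun k => w (a k))| ≤ Real.log (C.val w.1)) :
    |htgSum Φ₁ a - htgSum Φ₂ a| ≤ htgC C := by
  have h1 := htg_mono' C hf1 hf2 fun w => by
    have := (abs_le.mp (h w)).2
    linarith
  have h2 := htg_mono' C hf2 hf1 fun w => by
    have := (abs_le.mp (h w)).1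
    linarith
  rw [abs_le]
  constructor <;> linarith

end Fermat.Agent.HT
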