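import Mathlib
import Fermat.Agent.HT.Glob.Sum

/-!
# Program MW (S17), global layer : the general local-to-global lemma for linear combinations of
# log-sup-norms (helper16's ruling 3312 (2))

For finitely many NONZERO tuples `y a : ι a → Q̄` and real exponents `c a` :

  `(∀ w : HtAbs Q̄, ∑ a, c a * log (htlSup w (y a)) ≤ log (C.val w)) → ∑ a, c a * htgHt (y a) ≤ htgC C`

(`htg_lin_le`), its two-sided form `htg_lin_abs_le`, and the small companions : `htgHt_unit`
(a nonzero VALUE enters as a 1-tuple of height `0`), `htgHt_neg`, `htgHt_comp_equiv`.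
-/

set_option autoImplicit false
set_option linter.unusedSectionVars false

noncomputable section

namespace Fermat.Agent.HT

open MulAction Function

local notation "Γ" => HtgQb ≃ₐ[ℚ] HtgQb

section Small

variable {κ κ' : Type*} [Finite κ] [Finite κ']

/-- a nonzero VALUE, as a 1-tuple, has height `0` (product formula). -/
theorem htgHt_unique [Unique κ] (y : κ → HtgQb) (hy : y default ≠ 0) : htgHt y = 0 := by
  have h : (fun t : κ → ℝ => Real.log (⨆ k, t k)) = fun t => Real.log (t default) := by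
    funext t
    rw [ciSup_unique]
  rw [htgHt, h]
  exact htg_product_formula y default hy

theorem htgHt_unit {a : HtgQb} (ha : a ≠ 0) : htgHt (fun _ : Unit => a) = 0 :=
  htgHt_unique _ ha

theorem htgHt_neg (y : κ → HtgQb) : htgHt (-y) = htgHt y := by
  have := htgHt_smul y (c := -1) (by norm_num)
  rwa [neg_one_smul] at this

/-- reindexing along an equivalence. -/
theorem htgHt_comp_equiv (e : κ' ≃ κ) (y : κ → HtgQb) : htgHt (y ∘ e) = htgHt y := by
  rw [← htgSum_log_sup y e, htgHt]
  congr 1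
  funext t
  congr 1
  exact e.iSup_comp (g := t)

/-- the height of the zero tuple is `0` (junk value, recorded for completeness). -/
theorem htgHt_zero : htgHt (0 : κ → HtgQb) = 0 := by
  have hfix : ∀ σ : Γ, σ • (0 : κ → HtgQb) = 0 := fun σ => by
    funext k
    exact map_zero σ
  rw [htgHt, htgSum, htgaAvg_of_fixed _ hfix]
  have : (fun v : Option Nat.Primes =>
      Real.log (⨆ k : κ, htgAbs v ((0 : κ → HtgQb) k))) = fun _ => 0 := by
    funext v
    simp only [Pi.zero_apply, map_zero]
    rw [Real.iSup_const_zero, Real.log_zero]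
  rw [this, finsum_zero]

end Small

section Lin

variable {α : Type*} [Fintype α] {ι : α → Type*} [∀ a, Finite (ι a)]

/-- the big tuple on `Σ a, ι a`. -/
def htgBig (y : ∀ a, ι a → HtgQb) : (Σ a, ι a) → HtgQb := fun p => y p.1 p.2

theorem htgBig_comp (y : ∀ a, ι a → HtgQb) (a : α) : htgBig y ∘ Sigma.mk a = y a := rfl

/-- the global sum of a linear combination of log-sup-norms of sub-tuples. -/
theorem htgSum_lin (y : ∀ a, ι a → HtgQb) (hy : ∀ a, y a ≠ 0) (c : α → ℝ) :
    htgSum (fun t => ∑ a, c a * Real.log (⨆ i, t ⟨a, i⟩)) (htgBig y) =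
      ∑ a, c a * htgHt (y a) := by
  have hfin : ∀ a, HtgFin (fun t : (Σ a, ι a) → ℝ => Real.log (⨆ i, t ⟨a, i⟩)) (htgBig y) :=
    fun a => htgFin_log_sup (htgBig y) (Sigma.mk a) (by rw [htgBig_comp]; exact hy a)
  rw [htgSum_finset_sum fun a _ => (hfin a).const_mul (c a)]
  refine Finset.sum_congr rfl fun a _ => ?_
  rw [htgSum_const_mul, htgSum_log_sup (htgBig y) (Sigma.mk a), htgBig_comp]

theorem htgFin_lin (y : ∀ a, ι a → HtgQb) (hy : ∀ a, y a ≠ 0) (c : α → ℝ) :
    HtgFin (fun t => ∑ a, c a * Real.log (⨆ i, t ⟨a, i⟩)) (htgBig y) :=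
  HtgFin.finset_sum fun a _ =>
    (htgFin_log_sup (htgBig y) (Sigma.mk a) (by rw [htgBig_comp]; exact hy a)).const_mul (c a)

theorem htgFin_zero {κ : Type*} (a : κ → HtgQb) : HtgFin (fun _ => (0 : ℝ)) a := by
  intro y _
  exact Function.hasFiniteSupport_zero

/-- **the general local-to-global lemma** (ruling 3312 (2)) : a local inequality between
log-sup-norms of finitely many nonzero tuples, valid for ALL admissible absolute values of `Q̄` and
for the ORIGINAL tuples, gives the inequality between their heights. -/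
theorem htg_lin_le (y : ∀ a, ι a → HtgQb) (hy : ∀ a, y a ≠ 0) (c : α → ℝ) (C : HtConst HtgQb)
    (h : ∀ w : HtAbs HtgQb, ∑ a, c a * Real.log (htlSup w.1 (y a)) ≤ Real.log (C.val w.1)) :
    ∑ a, c a * htgHt (y a) ≤ htgC C := by
  have h1 := htg_mono' C (htgFin_lin y hy c) (htgFin_zero (htgBig y)) (fun w => by
    rw [zero_add]
    exact h w)
  rw [htgSum_lin y hy c, htgSum_zero, zero_add] at h1
  exact h1

/-- two-sided form. -/
theorem htg_lin_abs_le (y : ∀ a, ι a → HtgQb) (hy : ∀ a, y a ≠ 0) (c : α → ℝ) (C : HtConst HtgQb)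
    (h : ∀ w : HtAbs HtgQb, |∑ a, c a * Real.log (htlSup w.1 (y a))| ≤ Real.log (C.val w.1)) :
    |∑ a, c a * htgHt (y a)| ≤ htgC C := by
  have h1 := htg_lin_le y hy c C fun w => (le_abs_self _).trans (h w)
  have h2 := htg_lin_le y hy (fun a => -c a) C fun w => by
    have := (neg_le_abs _).trans (h w)
    simpa only [neg_mul, Finset.sum_neg_distrib] using this
  simp only [neg_mul, Finset.sum_neg_distrib] at h2
  rw [abs_le]
  constructor <;> linarith

/-- the same with the local inequality in multiplicative form :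
`∏ a, htlSup w (y a) ^ c a ≤ C.val w` is usually what the local leaves deliver; for natural
exponents on both sides : `∏ a, ‖y a‖ ^ p a ≤ C.val w * ∏ a, ‖y a‖ ^ q a`. -/
theorem htg_lin_le_of_prod (y : ∀ a, ι a → HtgQb) (hy : ∀ a, y a ≠ 0) (p q : α → ℕ)
    (C : HtConst HtgQb)
    (h : ∀ w : HtAbs HtgQb, ∏ a, htlSup w.1 (y a) ^ p a ≤ C.val w.1 * ∏ a, htlSup w.1 (y a) ^ q a) :
    ∑ a, ((p a : ℝ) - q a) * htgHt (y a) ≤ htgC C := by
  refine htg_lin_le y hy (fun a => (p a : ℝ) - q a) C fun w => ?_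
  have hpos : ∀ a, 0 < htlSup w.1 (y a) := fun a => htlSup_pos_iff.mpr (hy a)
  have hP : 0 < ∏ a, htlSup w.1 (y a) ^ p a := Finset.prod_pos fun a _ => pow_pos (hpos a) _
  have hQ : 0 < ∏ a, htlSup w.1 (y a) ^ q a := Finset.prod_pos fun a _ => pow_pos (hpos a) _
  have h1 := Real.log_le_log hP (h w)
  rw [Real.log_mul (htl_val_ne_zero C w.1) hQ.ne', Real.log_prod fun a _ => (pow_pos (hpos a) _).ne',
    Real.log_prod fun a _ => (pow_pos (hpos a) _).ne'] at h1
  simp only [Real.log_pow] at h1
  have : ∑ a, ((p a : ℝ) - q a) * Real.log (htlSup w.1 (y a)) =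
      ∑ a, (p a : ℝ) * Real.log (htlSup w.1 (y a)) -
        ∑ a, (q a : ℝ) * Real.log (htlSup w.1 (y a)) := by
    rw [← Finset.sum_sub_distrib]
    exact Finset.sum_congr rfl fun a _ => sub_mul _ _ _
  rw [this]
  linarith

end Lin

end Fermat.Agent.HT
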