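import Fermat.Agent.HT.Glob.Sum

/-!
# Program MW (S17), heights half, global layer: the local-to-global calculus

Owner: helper13.  Namespace `Fermat.Agent.HT`, prefix `htgr` / `Htgr`.

`HtgrLG L G` says: the *local quantity* `L : HtAbs Q̄ → ℝ` is of the form `w ↦ Φ (w ∘ a)` for a
finite tuple `a` of algebraic numbers and a local function `Φ` with finite support along the
Galois orbit of `a`, and `G = htgSum Φ a` is its *global value* (orbit average of the sum over
the fixed places).  The calculus: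

* base cases `htgr_log` (`L w = log (w c)`, `G = 0`: product formula) and
  `htgr_logSup` (`L w = log (htlSup w y)`, `G = htgHt y`);
* closure under `add`, `neg`, `sub`, `const_mul`, `finset_sum`, `multiset_sum`, `congr`;
* the local-to-global principle `HtgrLG.le` / `HtgrLG.abs_le`:
  `(∀ w, |L w| ≤ log (C.val w)) → |G| ≤ htgC C`.

No Galois equivariance of anything is needed by the users: every auxiliary number is an entry of
the tuple.
-/

set_option autoImplicit false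

noncomputable section

namespace Fermat.Agent.HT

open Function

/-- the local quantity `L` has the global value `G` -/
def HtgrLG (L : HtAbs HtgQb → ℝ) (G : ℝ) : Prop :=
  ∃ (n : ℕ) (a : Fin n → HtgQb) (Φ : (Fin n → ℝ) → ℝ),
    HtgFin Φ a ∧ (∀ w : HtAbs HtgQb, L w = Φ (fun k => w (a k))) ∧ G = htgSum Φ a

theorem HtgrLG.congr {L L' : HtAbs HtgQb → ℝ} {G G' : ℝ} (h : HtgrLG L G)
    (hL : ∀ w, L' w = L w) (hG : G' = G) : HtgrLG L' G' := by
  obtain ⟨n, a, Φ, hfin, hLa, hGa⟩ := h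
  exact ⟨n, a, Φ, hfin, fun w => (hL w).trans (hLa w), hG.trans hGa⟩

/-- general constructor from an arbitrary finite index type -/
theorem htgr_of_tuple {κ : Type*} [Finite κ] (a : κ → HtgQb) (Φ : (κ → ℝ) → ℝ)
    (hfin : HtgFin Φ a) : HtgrLG (fun w => Φ (fun k => w (a k))) (htgSum Φ a) := by
  classical
  obtain ⟨n, ⟨e⟩⟩ := Finite.exists_equiv_fin κ
  refine ⟨n, a ∘ e.symm, fun t => Φ (t ∘ e), ?_, ?_, ?_⟩
  · have h1 : HtgFin (fun t : Fin n → ℝ => Φ (t ∘ e)) (a ∘ e.symm) := by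
      have h2 : HtgFin Φ ((a ∘ e.symm) ∘ e) := by
        have : (a ∘ e.symm) ∘ e = a := by
          funext k; simp
        rw [this]; exact hfin
      exact HtgFin.comp (a := a ∘ e.symm) e h2
    exact h1
  · intro w
    show Φ _ = Φ _
    congr 1
    funext k
    simp
  · have h3 := htgSum_comp Φ e (a ∘ e.symm)
    have : (a ∘ e.symm) ∘ e = a := by
      funext k; simp
    rw [this] at h3
    exact h3.symm

theorem HtgrLG.add {L₁ L₂ : HtAbs HtgQb → ℝ} {G₁ G₂ : ℝ} (h₁ : HtgrLG L₁ G₁)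
    (h₂ : HtgrLG L₂ G₂) : HtgrLG (fun w => L₁ w + L₂ w) (G₁ + G₂) := by
  obtain ⟨n₁, a₁, Φ₁, hf₁, hL₁, hG₁⟩ := h₁
  obtain ⟨n₂, a₂, Φ₂, hf₂, hL₂, hG₂⟩ := h₂
  have hi1 : (Sum.elim a₁ a₂) ∘ (Sum.inl : Fin n₁ → Fin n₁ ⊕ Fin n₂) = a₁ := Sum.elim_comp_inl _ _
  have hi2 : (Sum.elim a₁ a₂) ∘ (Sum.inr : Fin n₂ → Fin n₁ ⊕ Fin n₂) = a₂ := Sum.elim_comp_inr _ _
  have hF1 : HtgFin (fun t : Fin n₁ ⊕ Fin n₂ → ℝ => Φ₁ (t ∘ Sum.inl)) (Sum.elim a₁ a₂) :=
    HtgFin.comp Sum.inl (by rw [hi1]; exact hf₁)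
  have hF2 : HtgFin (fun t : Fin n₁ ⊕ Fin n₂ → ℝ => Φ₂ (t ∘ Sum.inr)) (Sum.elim a₁ a₂) :=
    HtgFin.comp Sum.inr (by rw [hi2]; exact hf₂)
  have key := htgr_of_tuple (Sum.elim a₁ a₂)
    (fun t => Φ₁ (t ∘ Sum.inl) + Φ₂ (t ∘ Sum.inr)) (hF1.add hF2)
  refine key.congr ?_ ?_
  · intro w
    rw [hL₁ w, hL₂ w]
    rfl
  · rw [htgSum_add hF1 hF2, htgSum_comp Φ₁ Sum.inl, htgSum_comp Φ₂ Sum.inr, hi1, hi2, hG₁, hG₂]

theorem HtgrLG.const_mul {L : HtAbs HtgQb → ℝ} {G : ℝ} (h : HtgrLG L G) (c : ℝ) :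
    HtgrLG (fun w => c * L w) (c * G) := by
  obtain ⟨n, a, Φ, hf, hL, hG⟩ := h
  refine ⟨n, a, fun t => c * Φ t, hf.const_mul c, fun w => by show c * L w = c * Φ _; rw [hL w], ?_⟩
  rw [htgSum_const_mul, hG]

theorem HtgrLG.neg {L : HtAbs HtgQb → ℝ} {G : ℝ} (h : HtgrLG L G) :
    HtgrLG (fun w => -L w) (-G) :=
  (h.const_mul (-1)).congr (fun w => by ring) (by ring)

theorem HtgrLG.sub {L₁ L₂ : HtAbs HtgQb → ℝ} {G₁ G₂ : ℝ} (h₁ : HtgrLG L₁ G₁)
    (h₂ : HtgrLG L₂ G₂) : HtgrLG (fun w => L₁ w - L₂ w) (G₁ - G₂) :=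
  (h₁.add h₂.neg).congr (fun w => by ring) (by ring)

theorem HtgrLG.mul_const {L : HtAbs HtgQb → ℝ} {G : ℝ} (h : HtgrLG L G) (c : ℝ) :
    HtgrLG (fun w => L w * c) (G * c) :=
  (h.const_mul c).congr (fun w => by ring) (by ring)

/-- the product formula: `log (w c)` has global value `0` -/
theorem htgr_log (c : HtgQb) (hc : c ≠ 0) : HtgrLG (fun w => Real.log (w c)) 0 := by
  have h := htgr_of_tuple (fun _ : Fin 1 => c) (fun t => Real.log (t 0))
    (htgFin_log (fun _ : Fin 1 => c) 0 hc)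
  refine h.congr (fun w => rfl) ?_
  exact (htg_product_formula (fun _ : Fin 1 => c) 0 hc).symm

/-- the zero quantity -/
theorem htgr_zero : HtgrLG (fun _ => 0) 0 :=
  ((htgr_log 1 one_ne_zero).const_mul 0).congr (fun w => by ring) (by ring)

/-- a constant multiple of ... nothing: only `0` is a global constant -/
theorem htgr_logSup {ι : Type*} [Finite ι] (y : ι → HtgQb) (hy : y ≠ 0) :
    HtgrLG (fun w => Real.log (htlSup w.1 y)) (htgHt y) := by
  have hfin : HtgFin (fun t : ι → ℝ => Real.log (⨆ k, t k)) y := by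
    have := htgFin_log_sup y (id : ι → ι) (by simpa using hy)
    simpa using this
  exact htgr_of_tuple y (fun t => Real.log (⨆ k, t k)) hfin

theorem HtgrLG.finset_sum {α : Type*} (s : Finset α) {L : α → HtAbs HtgQb → ℝ} {G : α → ℝ}
    (h : ∀ i ∈ s, HtgrLG (L i) (G i)) :
    HtgrLG (fun w => ∑ i ∈ s, L i w) (∑ i ∈ s, G i) := by
  classical
  induction s using Finset.induction_on with
  | empty => simpa using htgr_zero
  | insert i s his ih =>
    have h1 := (h i (Finset.mem_insert_self i s)).add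
      (ih fun j hj => h j (Finset.mem_insert_of_mem hj))
    refine h1.congr (fun w => ?_) ?_
    · rw [Finset.sum_insert his]
    · rw [Finset.sum_insert his]

theorem HtgrLG.multiset_sum {α : Type*} (Z : Multiset α) {L : α → HtAbs HtgQb → ℝ} {G : α → ℝ}
    (h : ∀ i ∈ Z, HtgrLG (L i) (G i)) :
    HtgrLG (fun w => (Z.map fun i => L i w).sum) (Z.map G).sum := by
  induction Z using Multiset.induction_on with
  | empty => simpa using htgr_zero
  | cons i Z ih =>
    have h1 := (h i (Multiset.mem_cons_self i Z)).add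
      (ih fun j hj => h j (Multiset.mem_cons_of_mem hj))
    refine h1.congr (fun w => ?_) ?_
    · rw [Multiset.map_cons, Multiset.sum_cons]
    · rw [Multiset.map_cons, Multiset.sum_cons]

/-- **local-to-global principle**, one-sided -/
theorem HtgrLG.le {L : HtAbs HtgQb → ℝ} {G : ℝ} (h : HtgrLG L G) (C : HtConst HtgQb)
    (hL : ∀ w : HtAbs HtgQb, L w ≤ Real.log (C.val w.1)) : G ≤ htgC C := by
  obtain ⟨n, a, Φ, hf, hLa, hG⟩ := h
  have h0 : HtgFin (fun t => 0 * Φ t) a := hf.const_mul 0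
  have := htg_mono' C hf h0 (fun w => by
    have := hL w
    rw [hLa w] at this
    linarith)
  rw [htgSum_const_mul] at this
  rw [hG]
  linarith

/-- **local-to-global principle**, one-sided, lower bound -/
theorem HtgrLG.ge {L : HtAbs HtgQb → ℝ} {G : ℝ} (h : HtgrLG L G) (C : HtConst HtgQb)
    (hL : ∀ w : HtAbs HtgQb, -Real.log (C.val w.1) ≤ L w) : -htgC C ≤ G := by
  have := h.neg.le C (fun w => by have := hL w; linarith)
  linarith

/-- **local-to-global principle**, two-sided -/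
theorem HtgrLG.abs_le {L : HtAbs HtgQb → ℝ} {G : ℝ} (h : HtgrLG L G) (C : HtConst HtgQb)
    (hL : ∀ w : HtAbs HtgQb, |L w| ≤ Real.log (C.val w.1)) : |G| ≤ htgC C := by
  rw [_root_.abs_le]
  exact ⟨h.ge C fun w => (_root_.abs_le.mp (hL w)).1, h.le C fun w => (_root_.abs_le.mp (hL w)).2⟩

/-- comparison form -/
theorem HtgrLG.le_add {L₁ L₂ : HtAbs HtgQb → ℝ} {G₁ G₂ : ℝ} (h₁ : HtgrLG L₁ G₁)
    (h₂ : HtgrLG L₂ G₂) (C : HtConst HtgQb)
    (hL : ∀ w : HtAbs HtgQb, L₁ w ≤ L₂ w + Real.log (C.val w.1)) : G₁ ≤ G₂ + htgC C := by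
  have := (h₁.sub h₂).le C (fun w => by have := hL w; linarith)
  linarith

/-! ### ready-made local quantities -/

/-- natural multiples -/
theorem HtgrLG.nat_mul {L : HtAbs HtgQb → ℝ} {G : ℝ} (h : HtgrLG L G) (k : ℕ) :
    HtgrLG (fun w => (k : ℝ) * L w) ((k : ℝ) * G) := h.const_mul k

/-- `log` of a power of a sup norm -/
theorem htgr_logSup_pow {ι : Type*} [Finite ι] (y : ι → HtgQb) (hy : y ≠ 0) (k : ℕ) :
    HtgrLG (fun w => Real.log (htlSup w.1 y ^ k)) ((k : ℝ) * htgHt y) :=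
  ((htgr_logSup y hy).nat_mul k).congr (fun w => by rw [Real.log_pow]) rfl

/-- `log` of a power of an absolute value -/
theorem htgr_log_pow (c : HtgQb) (hc : c ≠ 0) (k : ℕ) :
    HtgrLG (fun w => Real.log (w c ^ k)) 0 :=
  ((htgr_log c hc).nat_mul k).congr (fun w => by rw [Real.log_pow]) (by ring)

/-- the chordal distance: global value `htgHt (y ∧ y') - htgHt y - htgHt y'` -/
theorem htgr_logDist {ι : Type*} [Finite ι] (y y' : ι → HtgQb) (hy : y ≠ 0) (hy' : y' ≠ 0)
    (hw : htlWedge y y' ≠ 0) :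
    HtgrLG (fun w => Real.log (htlDist w.1 y y'))
      (htgHt (htlWedge y y') - htgHt y - htgHt y') := by
  refine (((htgr_logSup _ hw).sub (htgr_logSup y hy)).sub (htgr_logSup y' hy')).congr
    (fun w => ?_) rfl
  have h1 : 0 < htlSup w.1 y := htlSup_pos_iff.mpr hy
  have h2 : 0 < htlSup w.1 y' := htlSup_pos_iff.mpr hy'
  have h3 : 0 < htlSup w.1 (htlWedge y y') := htlSup_pos_iff.mpr hw
  unfold htlDist
  rw [Real.log_div h3.ne' (mul_pos h1 h2).ne', Real.log_mul h1.ne' h2.ne']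
  ring

/-- a quotient of two sup norms -/
theorem htgr_logSup_div {ι ι' : Type*} [Finite ι] [Finite ι'] (y : ι → HtgQb) (y' : ι' → HtgQb)
    (hy : y ≠ 0) (hy' : y' ≠ 0) :
    HtgrLG (fun w => Real.log (htlSup w.1 y / htlSup w.1 y')) (htgHt y - htgHt y') := by
  refine ((htgr_logSup y hy).sub (htgr_logSup y' hy')).congr (fun w => ?_) rfl
  have h1 : 0 < htlSup w.1 y := htlSup_pos_iff.mpr hy
  have h2 : 0 < htlSup w.1 y' := htlSup_pos_iff.mpr hy'
  rw [Real.log_div h1.ne' h2.ne']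

/-- from a two-sided multiplicative estimate to a bound on the difference of logarithms -/
theorem htgr_abs_log_sub_le {A B c : ℝ} (hA : 0 < A) (hB : 0 < B) (h1 : A ≤ c * B)
    (h2 : B ≤ c * A) : |Real.log A - Real.log B| ≤ Real.log c := by
  have hc : 0 < c := by
    by_contra hc
    have : c * B ≤ 0 := mul_nonpos_of_nonpos_of_nonneg (not_lt.mp hc) hB.le
    linarith
  rw [_root_.abs_le]
  constructor
  · have := Real.log_le_log hB h2
    rw [Real.log_mul hc.ne' hA.ne'] at this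
    linarith
  · have := Real.log_le_log hA h1
    rw [Real.log_mul hc.ne' hB.ne'] at this
    linarith

/-- log of a product over a multiset of positive reals -/
theorem htgr_log_multiset_prod {α : Type*} (Z : Multiset α) (f : α → ℝ) (hf : ∀ i ∈ Z, 0 < f i) :
    Real.log (Z.map f).prod = (Z.map fun i => Real.log (f i)).sum := by
  induction Z using Multiset.induction_on with
  | empty => simp
  | cons i Z ih =>
    have hi : 0 < f i := hf i (Multiset.mem_cons_self i Z)
    have hZ : ∀ j ∈ Z, 0 < f j := fun j hj => hf j (Multiset.mem_cons_of_mem hj)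
    have hp : 0 < (Z.map f).prod := by
      apply Multiset.prod_pos
      intro x hx
      obtain ⟨j, hj, rfl⟩ := Multiset.mem_map.mp hx
      exact hZ j hj
    rw [Multiset.map_cons, Multiset.prod_cons, Real.log_mul hi.ne' hp.ne', ih hZ,
      Multiset.map_cons, Multiset.sum_cons]

/-- **two-sided local-to-global principle in multiplicative form**: if `A w ≍ B w` up to
`C.val w` for all `w`, `A, B > 0`, and `log A`, `log B` have global values `GA`, `GB`, then
`|GA - GB| ≤ htgC C`. -/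
theorem htgr_abs_sub_le_of_mul {A B : HtAbs HtgQb → ℝ} {GA GB : ℝ}
    (hA : HtgrLG (fun w => Real.log (A w)) GA) (hB : HtgrLG (fun w => Real.log (B w)) GB)
    (C : HtConst HtgQb) (hApos : ∀ w, 0 < A w) (hBpos : ∀ w, 0 < B w)
    (h : ∀ w : HtAbs HtgQb, A w ≤ C.val w.1 * B w ∧ B w ≤ C.val w.1 * A w) :
    |GA - GB| ≤ htgC C :=
  (hA.sub hB).abs_le C fun w => htgr_abs_log_sub_le (hApos w) (hBpos w) (h w).1 (h w).2

end Fermat.Agent.HT
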