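import Mathlib

/-!
# Program MW (S17), heights half, global layer: Mahler identity and scalar Northcott

Owner: helper3.  Prefix `htgm_`.  Mathlib only.

A *place system* on a field `E` of characteristic `0` (think `E = ℚ`-bar): one ring homomorphism
`ι : E →+* ℂ` and, for every prime `p`, a nonarchimedean absolute value `w p` on `E` which
restricts to the `p`-adic absolute value on `ℤ`.

* `htgm_gaussNorm_prod_roots` : Gauss norm of `c ∏ (X - a_i)` is `|c| ∏ max 1 |a_i|`.
* `htgm_prod_max_roots` : for a primitive `f : ℤ[X]` which splits over `E` :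
  `(∏ max 1 (w p a_i)) * |lc f|_p = 1`.
* `htgm_sum_log_padicNorm` : `∑ᶠ p, log |n|_p = - log |n|` for an integer `n ≠ 0`.
* `htgm_sum_posLog_eq_logMahler` : the Mahler identity.
* `htgmH`, `htgm_northcott` : the scalar height and Northcott's theorem in bounded degree.
-/

set_option autoImplicit false
set_option linter.unusedSectionVars false
set_option linter.unusedVariables false
set_option linter.style.haveILetI false

namespace Fermat.Agent.HT

open Polynomial Real

/-! ### Gauss norm of a split polynomial -/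

section Gauss

variable {E : Type*} [Field E]

theorem htgm_gaussNorm_X_sub_C (v : AbsoluteValue E ℝ) (a : E) :
    (X - C a : E[X]).gaussNorm v 1 = max 1 (v a) := by
  apply le_antisymm
  · obtain ⟨i, hi⟩ := (X - C a : E[X]).exists_eq_gaussNorm v 1
    rw [hi, one_pow, mul_one]
    rcases Nat.lt_or_ge i 2 with h | h
    · interval_cases i
      · rw [coeff_sub, coeff_X_zero, coeff_C_zero, zero_sub, map_neg_eq_map]
        exact le_max_right _ _
      · rw [coeff_sub, coeff_X_one, coeff_C, if_neg (by norm_num), sub_zero, map_one]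
        exact le_max_left _ _
    · have : (X - C a : E[X]).coeff i = 0 := by
        rw [coeff_sub, coeff_X, coeff_C, if_neg (by omega), if_neg (by omega), sub_zero]
      rw [this, map_zero]
      exact le_trans zero_le_one (le_max_left _ _)
  · apply max_le
    · have h := (X - C a : E[X]).le_gaussNorm v zero_le_one 1
      rw [coeff_sub, coeff_X_one, coeff_C, if_neg (by norm_num), sub_zero, map_one, one_pow,
        mul_one] at h
      exact h
    · have h := (X - C a : E[X]).le_gaussNorm v zero_le_one 0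
      rw [coeff_sub, coeff_X_zero, coeff_C_zero, zero_sub, map_neg_eq_map, pow_zero, mul_one] at h
      exact h

theorem htgm_gaussNorm_one (v : AbsoluteValue E ℝ) : (1 : E[X]).gaussNorm v 1 = 1 := by
  have : (1 : E[X]) = C 1 := by simp
  rw [this, Polynomial.gaussNorm_C, map_one]

theorem htgm_gaussNorm_multiset_prod (v : AbsoluteValue E ℝ) (hna : IsNonarchimedean v)
    (s : Multiset E) :
    ((s.map fun a => (X - C a : E[X])).prod).gaussNorm v 1 = (s.map fun a => max 1 (v a)).prod := by
  induction s using Multiset.induction_on with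
  | empty => simpa using htgm_gaussNorm_one v
  | cons a s ih =>
    rw [Multiset.map_cons, Multiset.prod_cons, Multiset.map_cons, Multiset.prod_cons,
      Polynomial.gaussNorm_mul hna one_pos, ih, htgm_gaussNorm_X_sub_C]

/-- **Gauss norm of a split polynomial.** -/
theorem htgm_gaussNorm_prod_roots (v : AbsoluteValue E ℝ) (hna : IsNonarchimedean v)
    (g : E[X]) (hs : g.Splits) :
    g.gaussNorm v 1 = v g.leadingCoeff * (g.roots.map fun a => max 1 (v a)).prod := by
  conv_lhs => rw [hs.eq_prod_roots]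
  rw [Polynomial.gaussNorm_mul hna one_pos, Polynomial.gaussNorm_C,
    htgm_gaussNorm_multiset_prod v hna]

end Gauss

/-! ### Primitive integer polynomials at a finite place -/

section Padic

variable {E : Type*} [Field E] [CharZero E]

/-- the Gauss norm of a primitive integer polynomial at a place extending `|·|_p` is `1` -/
theorem htgm_gaussNorm_primitive (v : AbsoluteValue E ℝ) (p : ℕ) (hp : p.Prime)
    (hext : ∀ n : ℤ, v (n : E) = ((padicNorm p (n : ℚ) : ℚ) : ℝ))
    (f : ℤ[X]) (hf : f.IsPrimitive) :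
    (f.map (Int.castRingHom E)).gaussNorm v 1 = 1 := by
  haveI : Fact p.Prime := ⟨hp⟩
  apply le_antisymm
  · obtain ⟨i, hi⟩ := (f.map (Int.castRingHom E)).exists_eq_gaussNorm v 1
    rw [hi, one_pow, mul_one, coeff_map, eq_intCast, hext]
    exact_mod_cast padicNorm.of_int (f.coeff i)
  · have hex : ∃ i, ¬ (p : ℤ) ∣ f.coeff i := by
      by_contra hall
      push Not at hall
      have hdvd : C (p : ℤ) ∣ f := (Polynomial.C_dvd_iff_dvd_coeff _ _).mpr hall
      have hu := hf (p : ℤ) hdvd
      rw [Int.ofNat_isUnit, Nat.isUnit_iff] at hu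
      exact hp.one_lt.ne' hu
    obtain ⟨i, hi⟩ := hex
    have h := (f.map (Int.castRingHom E)).le_gaussNorm v zero_le_one i
    rw [coeff_map, eq_intCast, hext, (padicNorm.int_eq_one_iff (f.coeff i)).mpr hi] at h
    simpa using h

/-- **Gauss lemma on the roots** : `(∏ max 1 |a_i|_p) · |lc f|_p = 1` for a primitive integer
polynomial `f` splitting over `E`. -/
theorem htgm_prod_max_roots (v : AbsoluteValue E ℝ) (hna : IsNonarchimedean v) (p : ℕ)
    (hp : p.Prime) (hext : ∀ n : ℤ, v (n : E) = ((padicNorm p (n : ℚ) : ℚ) : ℝ))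
    (f : ℤ[X]) (hf : f.IsPrimitive) (hs : (f.map (Int.castRingHom E)).Splits) :
    ((f.map (Int.castRingHom E)).roots.map fun a => max 1 (v a)).prod *
      ((padicNorm p (f.leadingCoeff : ℚ) : ℚ) : ℝ) = 1 := by
  have h1 := htgm_gaussNorm_prod_roots v hna _ hs
  rw [htgm_gaussNorm_primitive v p hp hext f hf] at h1
  have hlc : (f.map (Int.castRingHom E)).leadingCoeff = (f.leadingCoeff : E) := by
    rw [leadingCoeff_map_of_injective Int.cast_injective, eq_intCast]
  rw [hlc, hext] at h1
  rw [mul_comm]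
  exact h1.symm

/-- additive form -/
theorem htgm_sum_posLog_roots (v : AbsoluteValue E ℝ) (hna : IsNonarchimedean v) (p : ℕ)
    (hp : p.Prime) (hext : ∀ n : ℤ, v (n : E) = ((padicNorm p (n : ℚ) : ℚ) : ℝ))
    (f : ℤ[X]) (hf : f.IsPrimitive) (hs : (f.map (Int.castRingHom E)).Splits) :
    ((f.map (Int.castRingHom E)).roots.map fun a => log⁺ (v a)).sum =
      - Real.log ((padicNorm p (f.leadingCoeff : ℚ) : ℚ) : ℝ) := by
  haveI : Fact p.Prime := ⟨hp⟩
  have h1 := htgm_prod_max_roots v hna p hp hext f hf hs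
  have hf0 : f ≠ 0 := hf.ne_zero
  have hlc0 : (f.leadingCoeff : ℚ) ≠ 0 := by
    exact_mod_cast leadingCoeff_ne_zero.mpr hf0
  have hpn : ((padicNorm p (f.leadingCoeff : ℚ) : ℚ) : ℝ) ≠ 0 := by
    exact_mod_cast padicNorm.nonzero hlc0
  have hne : ∀ x ∈ ((f.map (Int.castRingHom E)).roots.map fun a => max 1 (v a)), x ≠ 0 := by
    intro x hx
    obtain ⟨a, -, rfl⟩ := Multiset.mem_map.mp hx
    exact (lt_of_lt_of_le zero_lt_one (le_max_left _ _)).ne'
  have h2 := congrArg Real.log h1
  rw [Real.log_mul (Multiset.prod_ne_zero (fun h => hne 0 h rfl)) hpn, Real.log_one,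
    Real.log_multiset_prod hne, Multiset.map_map] at h2
  have h3 : ((f.map (Int.castRingHom E)).roots.map fun a => log⁺ (v a)) =
      ((f.map (Int.castRingHom E)).roots.map (Real.log ∘ fun a => max 1 (v a))) := by
    apply Multiset.map_congr rfl
    intro a _
    exact posLog_eq_log_max_one (v.nonneg a)
  rw [h3]
  linarith

/-- **Finite support** : roots of `f` are integral at the primes not dividing `lc f`. -/
theorem htgm_le_one_of_not_dvd (v : AbsoluteValue E ℝ) (hna : IsNonarchimedean v) (p : ℕ)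
    (hp : p.Prime) (hext : ∀ n : ℤ, v (n : E) = ((padicNorm p (n : ℚ) : ℚ) : ℝ))
    (f : ℤ[X]) (hf : f.IsPrimitive) (hs : (f.map (Int.castRingHom E)).Splits)
    (hpl : ¬ (p : ℤ) ∣ f.leadingCoeff) (a : E) (ha : a ∈ (f.map (Int.castRingHom E)).roots) :
    v a ≤ 1 := by
  haveI : Fact p.Prime := ⟨hp⟩
  have h1 := htgm_sum_posLog_roots v hna p hp hext f hf hs
  rw [(padicNorm.int_eq_one_iff f.leadingCoeff).mpr hpl] at h1
  simp only [Rat.cast_one, Real.log_one, neg_zero] at h1
  have hle := Multiset.single_le_sum (s := (f.map (Int.castRingHom E)).roots.map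
    fun a => log⁺ (v a)) (by
    intro x hx
    obtain ⟨b, -, rfl⟩ := Multiset.mem_map.mp hx
    exact posLog_nonneg) (log⁺ (v a)) (Multiset.mem_map_of_mem _ ha)
  rw [h1] at hle
  have h2 : log⁺ (v a) = 0 := le_antisymm hle posLog_nonneg
  have h3 := (posLog_eq_zero_iff (v a)).mp h2
  rwa [abs_of_nonneg (v.nonneg a)] at h3

end Padic

/-! ### The product formula for integers -/

section ProductFormula

/-- `log |n|_p = - v_p(n) log p` -/
theorem htgm_log_padicNorm_nat (p : ℕ) (hp : p.Prime) (n : ℕ) (hn : n ≠ 0) :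
    Real.log ((padicNorm p (n : ℚ) : ℚ) : ℝ) = - ((n.factorization p : ℕ) : ℝ) * Real.log p := by
  haveI : Fact p.Prime := ⟨hp⟩
  have hq : (n : ℚ) ≠ 0 := by exact_mod_cast hn
  have hval : padicValRat p (n : ℚ) = ((n.factorization p : ℕ) : ℤ) := by
    rw [padicValRat.of_nat, Nat.factorization_def n hp]
  rw [padicNorm.eq_zpow_of_nonzero hq, hval]
  push_cast
  rw [Real.log_zpow]
  push_cast
  ring

theorem htgm_padicNorm_nat_eq_one (p : ℕ) (hp : p.Prime) (n : ℕ) (hpn : ¬ p ∣ n) :
    ((padicNorm p (n : ℚ) : ℚ) : ℝ) = 1 := by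
  haveI : Fact p.Prime := ⟨hp⟩
  exact_mod_cast (padicNorm.nat_eq_one_iff n).mpr hpn

/-- **Product formula for a natural number.** -/
theorem htgm_sum_log_padicNorm_nat (n : ℕ) (hn : n ≠ 0) :
    ∑ᶠ p : Nat.Primes, Real.log ((padicNorm (p : ℕ) (n : ℚ) : ℚ) : ℝ) = - Real.log n := by
  classical
  have key : ∑ᶠ p : {p : ℕ // p.Prime}, Real.log ((padicNorm (p : ℕ) (n : ℚ) : ℚ) : ℝ) =
      - Real.log n := by
    have hsupp : (Function.support fun p : {p : ℕ // p.Prime} =>
        Real.log ((padicNorm (p : ℕ) (n : ℚ) : ℚ) : ℝ)) ⊆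
        ((n.primeFactors.subtype Nat.Prime : Finset {p : ℕ // p.Prime}) :
          Set {p : ℕ // p.Prime}) := by
      intro p hp
      rw [Function.mem_support] at hp
      rw [Finset.mem_coe, Finset.mem_subtype, Nat.mem_primeFactors]
      refine ⟨p.2, ?_, hn⟩
      by_contra hdvd
      apply hp
      rw [htgm_padicNorm_nat_eq_one p p.2 n hdvd, Real.log_one]
    rw [finsum_eq_sum_of_support_subset _ hsupp, Real.log_nat_eq_sum_factorization,
      Finsupp.sum, Nat.support_factorization, ← Finset.sum_neg_distrib]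
    rw [Finset.sum_subtype_eq_sum_filter (f := fun p : ℕ =>
      Real.log ((padicNorm p (n : ℚ) : ℚ) : ℝ))]
    rw [Finset.filter_true_of_mem (fun p hp => (Nat.mem_primeFactors.mp hp).1)]
    apply Finset.sum_congr rfl
    intro p hp
    rw [htgm_log_padicNorm_nat p (Nat.mem_primeFactors.mp hp).1 n hn]
    ring
  exact key

/-- **Product formula for a nonzero integer** (finite part). -/
theorem htgm_sum_log_padicNorm_int (n : ℤ) (hn : n ≠ 0) :
    ∑ᶠ p : Nat.Primes, Real.log ((padicNorm (p : ℕ) (n : ℚ) : ℚ) : ℝ) = - Real.log |(n : ℝ)| := by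
  have h := htgm_sum_log_padicNorm_nat n.natAbs (Int.natAbs_ne_zero.mpr hn)
  have h1 : ∀ p : Nat.Primes,
      padicNorm (p : ℕ) ((n.natAbs : ℕ) : ℚ) = padicNorm (p : ℕ) (n : ℚ) := by
    intro p
    have h2 : ((n.natAbs : ℕ) : ℚ) = |(n : ℚ)| := by rw [Nat.cast_natAbs, Int.cast_abs]
    rw [h2]
    rcases abs_choice (n : ℚ) with h | h
    · rw [h]
    · rw [h, padicNorm.neg]
  simp_rw [h1] at h
  rw [h, Nat.cast_natAbs, Int.cast_abs]

end ProductFormula

/-! ### The Mahler identity -/

section Global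

variable {E : Type*} [Field E] [CharZero E]
  (ι : E →+* ℂ) (w : Nat.Primes → AbsoluteValue E ℝ)

/-- the set of primes dividing a nonzero integer is finite -/
theorem htgm_finite_primes_dvd (n : ℤ) (hn : n ≠ 0) :
    {p : Nat.Primes | ((p : ℕ) : ℤ) ∣ n}.Finite := by
  have h1 : {p : Nat.Primes | ((p : ℕ) : ℤ) ∣ n} ⊆
      (fun p : Nat.Primes => (p : ℕ)) ⁻¹' (n.natAbs.primeFactors : Set ℕ) := by
    intro p hp
    show (p : ℕ) ∈ (n.natAbs.primeFactors : Set ℕ)
    rw [Finset.mem_coe, Nat.mem_primeFactors]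
    exact ⟨p.2, Int.natCast_dvd.mp hp, Int.natAbs_ne_zero.mpr hn⟩
  exact (Set.Finite.preimage Nat.Primes.coe_nat_injective.injOn
    (Finset.finite_toSet _)).subset h1

/-- **Finite support**, in the form used to interchange sums. -/
theorem htgm_support_posLog_subset (hna : ∀ p, IsNonarchimedean (w p))
    (hext : ∀ (p : Nat.Primes) (n : ℤ), w p (n : E) = ((padicNorm (p : ℕ) (n : ℚ) : ℚ) : ℝ))
    (f : ℤ[X]) (hf : f.IsPrimitive) (hs : (f.map (Int.castRingHom E)).Splits)
    (a : E) (ha : a ∈ (f.map (Int.castRingHom E)).roots) :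
    (Function.support fun p : Nat.Primes => log⁺ (w p a)) ⊆
      {p : Nat.Primes | ((p : ℕ) : ℤ) ∣ f.leadingCoeff} := by
  intro p hp
  rw [Function.mem_support] at hp
  by_contra hnd
  apply hp
  have h1 := htgm_le_one_of_not_dvd (w p) (hna p) p p.2 (hext p) f hf hs hnd a ha
  rw [posLog_eq_zero_iff, abs_of_nonneg ((w p).nonneg a)]
  exact h1

/-- interchanging a multiset sum with a `finsum` of uniformly finite support -/
theorem htgm_multiset_sum_finsum {α β : Type*} (m : Multiset α) (g : β → α → ℝ) (T : Set β)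
    (hT : T.Finite) (hsupp : ∀ a ∈ m, (Function.support fun b => g b a) ⊆ T) :
    (m.map fun a => ∑ᶠ b, g b a).sum = ∑ᶠ b, (m.map fun a => g b a).sum := by
  induction m using Multiset.induction_on with
  | empty => simp
  | cons a m ih =>
    have hm : ∀ a' ∈ m, (Function.support fun b => g b a') ⊆ T :=
      fun a' ha' => hsupp a' (Multiset.mem_cons_of_mem ha')
    simp only [Multiset.map_cons, Multiset.sum_cons]
    rw [ih hm, finsum_add_distrib]
    · exact hT.subset (hsupp a (Multiset.mem_cons_self a m))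
    · apply hT.subset
      intro b hb
      rw [Function.mem_support] at hb
      by_contra hbT
      apply hb
      apply Multiset.sum_eq_zero
      intro x hx
      obtain ⟨a', ha', rfl⟩ := Multiset.mem_map.mp hx
      by_contra hne
      exact hbT (hm a' ha' (Function.mem_support.mpr hne))

/-- **Finite part of the Mahler identity** :
`Σ_a Σ_p log⁺ |a|_p = log |lc f|`. -/
theorem htgm_sum_finsum_posLog (hna : ∀ p, IsNonarchimedean (w p))
    (hext : ∀ (p : Nat.Primes) (n : ℤ), w p (n : E) = ((padicNorm (p : ℕ) (n : ℚ) : ℚ) : ℝ))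
    (f : ℤ[X]) (hf : f.IsPrimitive) (hs : (f.map (Int.castRingHom E)).Splits) :
    ((f.map (Int.castRingHom E)).roots.map fun a => ∑ᶠ p : Nat.Primes, log⁺ (w p a)).sum =
      Real.log |(f.leadingCoeff : ℝ)| := by
  have hlc : f.leadingCoeff ≠ 0 := leadingCoeff_ne_zero.mpr hf.ne_zero
  rw [htgm_multiset_sum_finsum _ (fun (p : Nat.Primes) (a : E) => log⁺ (w p a)) _
    (htgm_finite_primes_dvd f.leadingCoeff hlc)
    (fun a ha => htgm_support_posLog_subset w hna hext f hf hs a ha)]
  have h1 : ∀ p : Nat.Primes,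
      ((f.map (Int.castRingHom E)).roots.map fun a => log⁺ (w p a)).sum =
        - Real.log ((padicNorm (p : ℕ) (f.leadingCoeff : ℚ) : ℚ) : ℝ) :=
    fun p => htgm_sum_posLog_roots (w p) (hna p) p p.2 (hext p) f hf hs
  simp_rw [h1]
  rw [finsum_neg_distrib, htgm_sum_log_padicNorm_int f.leadingCoeff hlc, neg_neg]

/-- **Archimedean part of the Mahler identity.** -/
theorem htgm_sum_posLog_norm (f : ℤ[X]) (hf0 : f ≠ 0)
    (hs : (f.map (Int.castRingHom E)).Splits) :
    ((f.map (Int.castRingHom E)).roots.map fun a => log⁺ ‖ι a‖).sum =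
      Real.log ((f.map (Int.castRingHom ℂ)).mahlerMeasure) - Real.log |(f.leadingCoeff : ℝ)| := by
  have hcomp : f.map (Int.castRingHom ℂ) = (f.map (Int.castRingHom E)).map ι := by
    rw [Polynomial.map_map]
    congr 1
    exact RingHom.ext_int _ _
  have h1 := logMahlerMeasure_eq_log_leadingCoeff_add_sum_log_roots (f.map (Int.castRingHom ℂ))
  rw [logMahlerMeasure_eq_log_MahlerMeasure] at h1
  have hroots : (f.map (Int.castRingHom ℂ)).roots = (f.map (Int.castRingHom E)).roots.map ι := by
    rw [hcomp]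
    exact hs.roots_map ι
  have hlc : (f.map (Int.castRingHom ℂ)).leadingCoeff = (f.leadingCoeff : ℂ) := by
    rw [leadingCoeff_map_of_injective Int.cast_injective, eq_intCast]
  rw [hroots, Multiset.map_map, hlc, Complex.norm_intCast] at h1
  rw [h1]
  simp only [Function.comp_def]
  ring

/-- **Product formula for a nonzero integer** in the place system `(ι, w)`. -/
theorem htgm_product_formula_int
    (hext : ∀ (p : Nat.Primes) (n : ℤ), w p (n : E) = ((padicNorm (p : ℕ) (n : ℚ) : ℚ) : ℝ))
    (n : ℤ) (hn : n ≠ 0) :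
    Real.log ‖ι (n : E)‖ + ∑ᶠ p : Nat.Primes, Real.log (w p (n : E)) = 0 := by
  simp_rw [hext]
  rw [htgm_sum_log_padicNorm_int n hn, map_intCast, Complex.norm_intCast]
  ring

/-- **The Mahler identity** : for a primitive integer polynomial `f` which splits over `E`, the
sum over its roots of all local heights `log⁺ |a|_v` is the logarithmic Mahler measure of `f`. -/
theorem htgm_sum_posLog_eq_logMahler (hna : ∀ p, IsNonarchimedean (w p))
    (hext : ∀ (p : Nat.Primes) (n : ℤ), w p (n : E) = ((padicNorm (p : ℕ) (n : ℚ) : ℚ) : ℝ))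
    (f : ℤ[X]) (hf : f.IsPrimitive) (hs : (f.map (Int.castRingHom E)).Splits) :
    ((f.map (Int.castRingHom E)).roots.map fun a =>
        log⁺ ‖ι a‖ + ∑ᶠ p : Nat.Primes, log⁺ (w p a)).sum =
      Real.log ((f.map (Int.castRingHom ℂ)).mahlerMeasure) := by
  rw [Multiset.sum_map_add, htgm_sum_finsum_posLog w hna hext f hf hs,
    htgm_sum_posLog_norm ι f hf.ne_zero hs]
  ring

end Global

/-! ### The scalar height and Northcott's theorem in bounded degree -/

section Northcott

/-- every nonzero rational polynomial is a nonzero rational multiple of a primitive integer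
polynomial -/
theorem htgm_exists_primitive (P : ℚ[X]) (hP : P ≠ 0) :
    ∃ (f : ℤ[X]) (c : ℚ), f.IsPrimitive ∧ c ≠ 0 ∧ f.map (Int.castRingHom ℚ) = C c * P := by
  obtain ⟨b, hb, hg⟩ := IsLocalization.integerNormalization_spec (nonZeroDivisors ℤ) P
  have hg0 : IsLocalization.integerNormalization (nonZeroDivisors ℤ) P ≠ 0 :=
    (IsLocalization.integerNormalization_eq_zero_iff le_rfl P).not.mpr hP
  generalize IsLocalization.integerNormalization (nonZeroDivisors ℤ) P = g at hg hg0
  have hb0 : b ≠ 0 := nonZeroDivisors.ne_zero hb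
  have hc0 : g.content ≠ 0 := content_eq_zero_iff.not.mpr hg0
  have hcq : (g.content : ℚ) ≠ 0 := by exact_mod_cast hc0
  refine ⟨g.primPart, (b : ℚ) / (g.content : ℚ), g.isPrimitive_primPart,
    div_ne_zero (by exact_mod_cast hb0) hcq, ?_⟩
  have h2 : g.map (Int.castRingHom ℚ) =
      C (g.content : ℚ) * g.primPart.map (Int.castRingHom ℚ) := by
    conv_lhs => rw [g.eq_C_content_mul_primPart]
    rw [Polynomial.map_mul, map_C, eq_intCast]
  have h3 : g.map (Int.castRingHom ℚ) = C (b : ℚ) * P := by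
    rw [← algebraMap_int_eq, hg, zsmul_eq_mul]
    simp
  rw [h2] at h3
  have h4 : g.primPart.map (Int.castRingHom ℚ) =
      C (g.content : ℚ)⁻¹ * (C (g.content : ℚ) * g.primPart.map (Int.castRingHom ℚ)) := by
    rw [← mul_assoc, ← C_mul, inv_mul_cancel₀ hcq, C_1, one_mul]
  rw [h4, h3, ← mul_assoc, ← C_mul, div_eq_inv_mul]

variable {E : Type*} [Field E] [CharZero E] [Algebra ℚ E]
  (ι : E →+* ℂ) (w : Nat.Primes → AbsoluteValue E ℝ)

/-- the total local height of `a` : `log⁺ ‖ι a‖ + Σ_p log⁺ |a|_p` -/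
noncomputable def htgmLoc (a : E) : ℝ := log⁺ ‖ι a‖ + ∑ᶠ p : Nat.Primes, log⁺ (w p a)

theorem htgmLoc_nonneg (a : E) : 0 ≤ htgmLoc ι w a :=
  add_nonneg posLog_nonneg (finsum_nonneg fun _ => posLog_nonneg)

/-- **the scalar height** : the average of the total local height over the conjugates of `a`
(the roots in `E` of its minimal polynomial over `ℚ`). -/
noncomputable def htgmH (a : E) : ℝ :=
  (((minpoly ℚ a).aroots E).map (htgmLoc ι w)).sum / ((minpoly ℚ a).natDegree : ℝ)

theorem htgmH_nonneg (a : E) : 0 ≤ htgmH ι w a := by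
  apply div_nonneg _ (Nat.cast_nonneg _)
  apply Multiset.sum_nonneg
  intro x hx
  obtain ⟨b, -, rfl⟩ := Multiset.mem_map.mp hx
  exact htgmLoc_nonneg ι w b

omit [CharZero E] in
/-- the primitive integer polynomial of an algebraic `a` -/
theorem htgm_exists_primitive_minpoly (a : E) (ha : IsIntegral ℚ a) :
    ∃ f : ℤ[X], f.IsPrimitive ∧ f.natDegree = (minpoly ℚ a).natDegree ∧
      (f.map (Int.castRingHom E)).roots = (minpoly ℚ a).aroots E := by
  obtain ⟨f, c, hf, hc, hfc⟩ := htgm_exists_primitive (minpoly ℚ a) (minpoly.ne_zero ha)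
  have hcomp : Int.castRingHom E = (algebraMap ℚ E).comp (Int.castRingHom ℚ) :=
    RingHom.ext_int _ _
  have hmap : f.map (Int.castRingHom E) =
      C (algebraMap ℚ E c) * (minpoly ℚ a).map (algebraMap ℚ E) := by
    rw [hcomp, ← Polynomial.map_map, hfc, Polynomial.map_mul, map_C]
  have hcE : algebraMap ℚ E c ≠ 0 := (map_ne_zero (algebraMap ℚ E)).mpr hc
  have hroots : (f.map (Int.castRingHom E)).roots = (minpoly ℚ a).aroots E := by
    rw [hmap, roots_C_mul _ hcE]
  have hdeg : f.natDegree = (minpoly ℚ a).natDegree := by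
    rw [← natDegree_map_eq_of_injective (f := Int.castRingHom ℚ) Int.cast_injective f, hfc,
      natDegree_C_mul hc]
  exact ⟨f, hf, hdeg, hroots⟩

/-- **the height is a Mahler measure** : the primitive integer polynomial of an algebraic `a`. -/
theorem htgm_exists_mahler [IsAlgClosed E] (hna : ∀ p, IsNonarchimedean (w p))
    (hext : ∀ (p : Nat.Primes) (n : ℤ), w p (n : E) = ((padicNorm (p : ℕ) (n : ℚ) : ℚ) : ℝ))
    (a : E) (ha : IsIntegral ℚ a) :
    ∃ f : ℤ[X], f.IsPrimitive ∧ f.natDegree = (minpoly ℚ a).natDegree ∧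
      (f.map (Int.castRingHom E)).roots = (minpoly ℚ a).aroots E ∧
      (((minpoly ℚ a).aroots E).map (htgmLoc ι w)).sum =
        Real.log ((f.map (Int.castRingHom ℂ)).mahlerMeasure) := by
  obtain ⟨f, hf, hdeg, hroots⟩ := htgm_exists_primitive_minpoly a ha
  refine ⟨f, hf, hdeg, hroots, ?_⟩
  rw [← hroots]
  exact htgm_sum_posLog_eq_logMahler ι w hna hext f hf (IsAlgClosed.splits _)

/-- **Northcott's theorem in bounded degree** for the scalar height. -/
theorem htgm_northcott [IsAlgClosed E] [Algebra.IsAlgebraic ℚ E]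
    (hna : ∀ p, IsNonarchimedean (w p))
    (hext : ∀ (p : Nat.Primes) (n : ℤ), w p (n : E) = ((padicNorm (p : ℕ) (n : ℚ) : ℚ) : ℝ))
    (d : ℕ) (B : ℝ) :
    {a : E | (minpoly ℚ a).natDegree ≤ d ∧ htgmH ι w a ≤ B}.Finite := by
  classical
  have hfin := Polynomial.finite_mahlerMeasure_le d (Real.toNNReal (Real.exp (max B 0 * d)))
  have hsub : {a : E | (minpoly ℚ a).natDegree ≤ d ∧ htgmH ι w a ≤ B} ⊆
      ⋃ f ∈ {p : ℤ[X] | p.natDegree ≤ d ∧ (p.map (Int.castRingHom ℂ)).mahlerMeasure ≤
        (Real.toNNReal (Real.exp (max B 0 * d)) : ℝ)},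
        ((f.map (Int.castRingHom E)).roots.toFinset : Set E) := by
    rintro a ⟨had, haB⟩
    have ha : IsIntegral ℚ a := (Algebra.IsAlgebraic.isAlgebraic a).isIntegral
    obtain ⟨f, hf, hdeg, hroots, hsum⟩ := htgm_exists_mahler ι w hna hext a ha
    have hdpos : 0 < (minpoly ℚ a).natDegree := minpoly.natDegree_pos ha
    have hH : htgmH ι w a * ((minpoly ℚ a).natDegree : ℝ) =
        Real.log ((f.map (Int.castRingHom ℂ)).mahlerMeasure) := by
      rw [htgmH, hsum, div_mul_cancel₀]
      exact_mod_cast hdpos.ne'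
    have hf0 : f.map (Int.castRingHom ℂ) ≠ 0 := by
      rw [Ne, Polynomial.map_eq_zero_iff Int.cast_injective]
      exact hf.ne_zero
    have hMpos := mahlerMeasure_pos_of_ne_zero hf0
    rw [Set.mem_iUnion₂]
    refine ⟨f, ⟨hdeg ▸ had, ?_⟩, ?_⟩
    · rw [Real.coe_toNNReal _ (Real.exp_pos _).le, ← Real.exp_log hMpos, ← hH]
      apply Real.exp_le_exp.mpr
      have h1 : htgmH ι w a ≤ max B 0 := le_trans haB (le_max_left _ _)
      have h2 : ((minpoly ℚ a).natDegree : ℝ) ≤ d := by exact_mod_cast had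
      calc htgmH ι w a * ((minpoly ℚ a).natDegree : ℝ)
          ≤ max B 0 * ((minpoly ℚ a).natDegree : ℝ) :=
            mul_le_mul_of_nonneg_right h1 (Nat.cast_nonneg _)
        _ ≤ max B 0 * d := mul_le_mul_of_nonneg_left h2 (le_max_right _ _)
    · rw [Finset.mem_coe, Multiset.mem_toFinset, hroots, mem_aroots]
      exact ⟨minpoly.ne_zero ha, minpoly.aeval ℚ a⟩
  refine Set.Finite.subset (Set.Finite.biUnion hfin fun f _ => Finset.finite_toSet _) hsub

/-- **Northcott for tuples**, for any function `H` dominating the scalar heights of the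
coordinates. -/
theorem htgm_northcott_tuple [IsAlgClosed E] [Algebra.IsAlgebraic ℚ E]
    (hna : ∀ p, IsNonarchimedean (w p))
    (hext : ∀ (p : Nat.Primes) (n : ℤ), w p (n : E) = ((padicNorm (p : ℕ) (n : ℚ) : ℚ) : ℝ))
    {κ : Type*} [Finite κ] (S : Set (κ → E)) (H : (κ → E) → ℝ)
    (hH : ∀ x ∈ S, ∀ i, htgmH ι w (x i) ≤ H x) (d : ℕ) (B : ℝ) :
    {x : κ → E | x ∈ S ∧ (∀ i, (minpoly ℚ (x i)).natDegree ≤ d) ∧ H x ≤ B}.Finite := by
  have hfin := htgm_northcott ι w hna hext d B
  refine Set.Finite.subset (Set.Finite.pi fun _ : κ => hfin) ?_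
  rintro x ⟨hxS, hxd, hxB⟩
  rw [Set.mem_univ_pi]
  intro i
  exact ⟨hxd i, le_trans (hH x hxS i) hxB⟩

/-! #### bridges for consumers -/

/-- the height only depends on the minimal polynomial (conjugates have the same height) -/
theorem htgmH_congr (a b : E) (hab : minpoly ℚ a = minpoly ℚ b) : htgmH ι w a = htgmH ι w b := by
  rw [htgmH, htgmH, hab]

/-- conjugates have the same height -/
theorem htgmH_of_aeval_eq_zero (a b : E) (ha : IsIntegral ℚ a)
    (hb : aeval b (minpoly ℚ a) = 0) : htgmH ι w b = htgmH ι w a :=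
  htgmH_congr ι w b a (minpoly.eq_of_irreducible_of_monic (minpoly.irreducible ha) hb
    (minpoly.monic ha)).symm

/-- **Finset form of the height** : if `O` is the finite set of conjugates of `a` then
`htgmH a = (Σ_{b ∈ O} htgmLoc b) / |O|`. -/
theorem htgmH_eq_finset_sum [IsAlgClosed E] (a : E) (ha : IsIntegral ℚ a) (O : Finset E)
    (hO : ∀ b, b ∈ O ↔ aeval b (minpoly ℚ a) = 0) :
    htgmH ι w a = (∑ b ∈ O, htgmLoc ι w b) / (O.card : ℝ) := by
  have hnodup : ((minpoly ℚ a).aroots E).Nodup :=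
    nodup_roots (Separable.map (minpoly.irreducible ha).separable)
  have heq : (minpoly ℚ a).aroots E = O.val := by
    refine (Multiset.Nodup.ext hnodup O.nodup).mpr fun b => ?_
    rw [mem_aroots, Finset.mem_val, hO]
    exact and_iff_right (minpoly.ne_zero ha)
  have hcard : (minpoly ℚ a).natDegree = O.card := by
    have h1 := (IsAlgClosed.splits ((minpoly ℚ a).map (algebraMap ℚ E))).natDegree_eq_card_roots
    rw [natDegree_map] at h1
    rw [h1, ← Finset.card_val, ← heq]
  rw [htgmH, heq, hcard]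
  rfl

/-- splitting a `finsum` over `Option α` -/
theorem htgm_finsum_option {α : Type*} (F : Option α → ℝ) (hF : (Function.support F).Finite) :
    ∑ᶠ v, F v = F none + ∑ᶠ a, F (some a) := by
  rw [← finsum_mem_univ, ← Set.insert_none_range_some,
    finsum_mem_insert' F (by simp) (hF.subset Set.inter_subset_right),
    finsum_mem_range (Option.some_injective _)]

/-- **finite support of the local heights** of an algebraic element : `log⁺ |a|_p = 0` for all
but finitely many `p`. -/
theorem htgm_finite_support_posLog [IsAlgClosed E] (hna : ∀ p, IsNonarchimedean (w p))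
    (hext : ∀ (p : Nat.Primes) (n : ℤ), w p (n : E) = ((padicNorm (p : ℕ) (n : ℚ) : ℚ) : ℝ))
    (a : E) (ha : IsIntegral ℚ a) :
    (Function.support fun p : Nat.Primes => log⁺ (w p a)).Finite := by
  obtain ⟨f, hf, -, hroots⟩ := htgm_exists_primitive_minpoly a ha
  have hmem : a ∈ (f.map (Int.castRingHom E)).roots := by
    rw [hroots, mem_aroots]
    exact ⟨minpoly.ne_zero ha, minpoly.aeval ℚ a⟩
  exact (htgm_finite_primes_dvd f.leadingCoeff (leadingCoeff_ne_zero.mpr hf.ne_zero)).subset
    (htgm_support_posLog_subset w hna hext f hf (IsAlgClosed.splits _) a hmem)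

end Northcott

end Fermat.Agent.HT
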