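import Mathlib
import Fermat.Agent.HT.Glob.Mahler
import Fermat.Agent.HT.Glob.Sys

/-!
# Program MW (S17), global layer : Northcott's theorem for the heights of a place system

Owner: helper3.  Prefix `htgn`.

Bridge between `HT/Glob/Mahler.lean` (the scalar height `htgmH` as a Mahler measure, Northcott in
bounded degree) and `HT/Glob/Sys.lean` (the orbit-average heights `htgaHt₁`, `htgaHt` of a place
system `W : Option Nat.Primes → AbsoluteValue Q̄ ℝ`).

* `htgn_ht₁_eq` : `htgaHt₁ W a = htgmH ι (fun p => W (some p)) a`;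
* `htgn_northcott₁` : Northcott in bounded degree for `htgaHt₁ W`;
* `htgn_northcott` : Northcott in bounded degree for the height `htgaHt W` of tuples with a
  coordinate equal to `1`.
-/

set_option autoImplicit false
set_option linter.unusedSectionVars false
set_option linter.unusedVariables false

noncomputable section

namespace Fermat.Agent.HT

open MulAction Function Polynomial Real

local notation "Qb" => AlgebraicClosure ℚ
local notation "Γ" => (AlgebraicClosure ℚ) ≃ₐ[ℚ] (AlgebraicClosure ℚ)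

variable (W : Option Nat.Primes → AbsoluteValue Qb ℝ) (ι : Qb →+* ℂ)

/-- the scalar height of the place system is the Mahler-measure height. -/
theorem htgn_ht₁_eq (h0 : ∀ a, W none a = ‖ι a‖) (hna : ∀ p, IsNonarchimedean (W (some p)))
    (hext : ∀ (p : Nat.Primes) (n : ℤ),
      W (some p) (n : Qb) = ((padicNorm (p : ℕ) (n : ℚ) : ℚ) : ℝ)) (a : Qb) :
    htgaHt₁ W a = htgmH ι (fun p => W (some p)) a := by
  classical
  have hint : ∀ b : Qb, IsIntegral ℚ b := htga_isIntegral
  have hO : ∀ b, b ∈ htgaOrb Γ a ↔ aeval b (minpoly ℚ a) = 0 := by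
    intro b
    rw [htgaOrb_eq_toFinset, Multiset.mem_toFinset, mem_aroots]
    exact and_iff_right (minpoly.ne_zero (hint a))
  rw [htgmH_eq_finset_sum ι (fun p => W (some p)) a (hint a) (htgaOrb Γ a) hO, htgaHt₁, htgaAvg]
  congr 1
  apply Finset.sum_congr rfl
  intro b _
  have hfin : (Function.support fun v : Option Nat.Primes => log⁺ (W v b)).Finite := by
    have h1 := htgm_finite_support_posLog (fun p => W (some p)) hna hext b (hint b)
    refine ((h1.image some).union (Set.finite_singleton none)).subset ?_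
    intro v hv
    rcases v with _ | p
    · exact Or.inr rfl
    · exact Or.inl ⟨p, hv, rfl⟩
  rw [htgm_finsum_option _ hfin, htgmLoc, h0]

/-- **Northcott in bounded degree** for the scalar height of a place system. -/
theorem htgn_northcott₁ (h0 : ∀ a, W none a = ‖ι a‖) (hna : ∀ p, IsNonarchimedean (W (some p)))
    (hext : ∀ (p : Nat.Primes) (n : ℤ),
      W (some p) (n : Qb) = ((padicNorm (p : ℕ) (n : ℚ) : ℚ) : ℝ)) (d : ℕ) (B : ℝ) :
    {a : Qb | (minpoly ℚ a).natDegree ≤ d ∧ htgaHt₁ W a ≤ B}.Finite := by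
  have : Algebra.IsAlgebraic ℚ Qb := AlgebraicClosure.isAlgebraic ℚ
  have h := htgm_northcott ι (fun p => W (some p)) hna hext d B
  simp_rw [htgn_ht₁_eq W ι h0 hna hext]
  exact h

/-- **Northcott in bounded degree** for the height of tuples with a coordinate equal to `1`
(blueprint `htg_northcott`). -/
theorem htgn_northcott (S : HtgaSys W) (h0 : ∀ a, W none a = ‖ι a‖)
    (hna : ∀ p, IsNonarchimedean (W (some p)))
    (hext : ∀ (p : Nat.Primes) (n : ℤ),
      W (some p) (n : Qb) = ((padicNorm (p : ℕ) (n : ℚ) : ℚ) : ℝ))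
    {κ : Type*} [Finite κ] (i₀ : κ) (d : ℕ) (B : ℝ) :
    {y : κ → Qb | y i₀ = 1 ∧ (∀ i, (minpoly ℚ (y i)).natDegree ≤ d) ∧ htgaHt W y ≤ B}.Finite := by
  have hfin := htgn_northcott₁ W ι h0 hna hext d B
  refine Set.Finite.subset (Set.Finite.pi fun _ : κ => hfin) ?_
  rintro y ⟨hy1, hyd, hyB⟩
  rw [Set.mem_univ_pi]
  intro i
  exact ⟨hyd i, le_trans (S.ht₁_le_ht y i i₀ hy1) hyB⟩

/-- **Northcott for points** : `φ P` a tuple of values attached to a "point" `P`, with a coordinate
equal to `1`; if the sub-tuple `φ P ∘ f` determines `P`, then there are finitely many points of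
bounded height whose coordinates `φ P (f j)` have bounded degree. -/
theorem htgn_northcott_points (S : HtgaSys W) (h0 : ∀ a, W none a = ‖ι a‖)
    (hna : ∀ p, IsNonarchimedean (W (some p)))
    (hext : ∀ (p : Nat.Primes) (n : ℤ),
      W (some p) (n : Qb) = ((padicNorm (p : ℕ) (n : ℚ) : ℚ) : ℝ))
    {Pt κ κ' : Type*} [Finite κ] [Finite κ'] (φ : Pt → κ → Qb) (i₀ : κ)
    (h1 : ∀ P, φ P i₀ = 1) (f : κ' → κ) (hinj : Function.Injective fun P => φ P ∘ f)
    (d : ℕ) (B : ℝ) :
    {P : Pt | (∀ j, (minpoly ℚ (φ P (f j))).natDegree ≤ d) ∧ htgaHt W (φ P) ≤ B}.Finite := by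
  have hfin := htgn_northcott₁ W ι h0 hna hext d B
  have hpi : (Set.univ.pi fun _ : κ' => {a : Qb | (minpoly ℚ a).natDegree ≤ d ∧
      htgaHt₁ W a ≤ B}).Finite := Set.Finite.pi fun _ => hfin
  refine Set.Finite.subset (Set.Finite.preimage hinj.injOn hpi) ?_
  rintro P ⟨hPd, hPB⟩
  rw [Set.mem_preimage, Set.mem_univ_pi]
  intro j
  exact ⟨hPd j, le_trans (S.ht₁_le_ht (φ P) (f j) i₀ (h1 P)) hPB⟩

end Fermat.Agent.HT
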