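import Mathlib

/-!
# Program MW (S17), heights half, global layer (D3): the fixed places of `Qb`

Owner: helper22.  Prefix `htg`.

We fix once and for all one complex embedding `htgEmbC : Qb →ₐ[ℚ] ℂ` and, for every prime `p`, one
`p`-adic embedding `htgEmbP p : Qb →ₐ[ℚ] PadicAlgCl p` of `Qb = AlgebraicClosure ℚ`, and let
`htgAbs : Option Nat.Primes → AbsoluteValue Qb ℝ` be the induced absolute values (`none` = the
archimedean place).  They extend the usual and the `p`-adic absolute values of `ℚ`, the `p`-adic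
ones are nonarchimedean and `≤ 1` on algebraic integers, every `a ≠ 0` has all its conjugates of
absolute value `1` at almost all `p` (`htg_finite_support`), and the product formula holds for
Galois-stable finite families (`htg_product_formula_orbit`).
-/

set_option autoImplicit false

namespace Fermat.Agent.HT

/-- the field of algebraic numbers -/
abbrev HtgQb : Type := AlgebraicClosure ℚ

instance htgIsAlgebraic : Algebra.IsAlgebraic ℚ HtgQb := AlgebraicClosure.isAlgebraic ℚ

/-- a fixed complex embedding of `Qb` -/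
noncomputable def htgEmbC : HtgQb →ₐ[ℚ] ℂ := IsAlgClosed.lift

instance htgFact (p : Nat.Primes) : Fact (p : ℕ).Prime := ⟨p.2⟩

/-- a fixed `p`-adic embedding of `Qb` -/
noncomputable def htgEmbP (p : Nat.Primes) : HtgQb →ₐ[ℚ] PadicAlgCl (p : ℕ) := IsAlgClosed.lift

/-- the fixed absolute values on `Qb`: `none` is the archimedean one, `some p` the `p`-adic one -/
noncomputable def htgAbs : Option Nat.Primes → AbsoluteValue HtgQb ℝ
  | none => (NormedField.toAbsoluteValue ℂ).comp htgEmbC.toRingHom.injective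
  | some p => (NormedField.toAbsoluteValue (PadicAlgCl (p : ℕ))).comp (htgEmbP p).toRingHom.injective

theorem htgAbs_none (x : HtgQb) : htgAbs none x = ‖htgEmbC x‖ := rfl

theorem htgAbs_some (p : Nat.Primes) (x : HtgQb) : htgAbs (some p) x = ‖htgEmbP p x‖ := rfl

theorem htgAbs_ratCast_none (q : ℚ) : htgAbs none (algebraMap ℚ HtgQb q) = |(q : ℝ)| := by
  rw [htgAbs_none, AlgHom.commutes]
  simp

theorem htgAbs_ratCast_some (p : Nat.Primes) (q : ℚ) :
    htgAbs (some p) (algebraMap ℚ HtgQb q) = (padicNorm p q : ℝ) := by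
  rw [htgAbs_some, AlgHom.commutes]
  have h : algebraMap ℚ (PadicAlgCl (p : ℕ)) q = algebraMap ℚ_[(p:ℕ)] (PadicAlgCl (p : ℕ)) (q : ℚ_[(p:ℕ)]) := by
    simp
  rw [h]
  have := PadicAlgCl.norm_extends (p : ℕ) (q : ℚ_[(p:ℕ)])
  rw [this]
  simp

theorem htgAbs_nonarch (p : Nat.Primes) : IsNonarchimedean (htgAbs (some p)) := by
  intro x y
  rw [htgAbs_some, htgAbs_some, htgAbs_some, map_add]
  exact PadicAlgCl.isNonarchimedean (p : ℕ) _ _

theorem htgAbs_intCast (p : Nat.Primes) (n : ℤ) :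
    htgAbs (some p) (n : HtgQb) = (padicNorm p (n : ℚ) : ℝ) := by
  have h : (n : HtgQb) = algebraMap ℚ HtgQb (n : ℚ) := by simp
  rw [h, htgAbs_ratCast_some]

theorem htgAbs_intCast_le_one (p : Nat.Primes) (n : ℤ) : htgAbs (some p) (n : HtgQb) ≤ 1 := by
  rw [htgAbs_intCast]
  exact_mod_cast padicNorm.of_int n

theorem htgAbs_intCast_eq_one (p : Nat.Primes) (n : ℤ) (h : ¬ ((p : ℕ) : ℤ) ∣ n) :
    htgAbs (some p) (n : HtgQb) = 1 := by
  rw [htgAbs_intCast]
  exact_mod_cast (padicNorm.int_eq_one_iff n).mpr h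

/-- an algebraic integer has `p`-adic absolute value at most one -/
theorem htgAbs_some_le_one_of_isIntegral (p : Nat.Primes) {a : HtgQb} (ha : IsIntegral ℤ a) :
    htgAbs (some p) a ≤ 1 := by
  by_contra hlt
  rw [not_le] at hlt
  obtain ⟨P, hPm, hPa⟩ := ha
  -- a^n = - ∑_{i<n} c_i a^i
  have hn : P.natDegree ≠ 0 := by
    intro h0
    have : P = 1 := by
      have := Polynomial.eq_C_of_natDegree_eq_zero h0
      rw [this] at hPm ⊢
      have h1 := hPm.leadingCoeff
      rw [Polynomial.leadingCoeff_C] at h1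
      rw [h1]; simp
    rw [this] at hPa
    simp at hPa
  have hsum : a ^ P.natDegree = - ∑ i ∈ Finset.range P.natDegree, ((P.coeff i : ℤ) : HtgQb) * a ^ i := by
    have h1 := hPa
    rw [Polynomial.eval₂_eq_sum_range, Finset.sum_range_succ, hPm.coeff_natDegree] at h1
    simp only [eq_intCast, Int.cast_one, one_mul] at h1
    linear_combination h1
  have hpos : 0 < htgAbs (some p) a := lt_trans one_pos hlt
  have hle : htgAbs (some p) (a ^ P.natDegree) ≤ htgAbs (some p) a ^ (P.natDegree - 1) := by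
    rw [hsum, map_neg_eq_map]
    obtain ⟨i, hi, hle⟩ := IsNonarchimedean.finset_image_add_of_nonempty (htgAbs_nonarch p)
      (fun i => ((P.coeff i : ℤ) : HtgQb) * a ^ i) (t := Finset.range P.natDegree)
      (by rw [Finset.nonempty_range_iff]; exact hn)
    refine hle.trans ?_
    rw [map_mul, map_pow]
    have h1 := htgAbs_intCast_le_one p (P.coeff i)
    have hi' : i ≤ P.natDegree - 1 := by
      have := Finset.mem_range.mp hi; omega
    calc htgAbs (some p) ((P.coeff i : ℤ) : HtgQb) * htgAbs (some p) a ^ i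
        ≤ 1 * htgAbs (some p) a ^ i := by
          apply mul_le_mul_of_nonneg_right h1 (pow_nonneg hpos.le _)
      _ = htgAbs (some p) a ^ i := one_mul _
      _ ≤ htgAbs (some p) a ^ (P.natDegree - 1) := pow_le_pow_right₀ hlt.le hi'
  rw [map_pow] at hle
  have : htgAbs (some p) a ^ (P.natDegree - 1) < htgAbs (some p) a ^ P.natDegree :=
    pow_lt_pow_right₀ hlt (by omega)
  exact absurd hle (not_le.mpr this)


/-- uniform finite support: for `a ≠ 0` all conjugates of `a` are `p`-adic units for almost all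
`p` -/
theorem htg_finite_support {a : HtgQb} (ha : a ≠ 0) :
    {p : Nat.Primes | ∃ σ : HtgQb ≃ₐ[ℚ] HtgQb, htgAbs (some p) (σ a) ≠ 1}.Finite := by
  obtain ⟨m, hm⟩ := IsIntegral.exists_multiple_integral_of_isLocalization (nonZeroDivisors ℤ)
    (Rₘ := ℚ) a (Algebra.IsIntegral.isIntegral a)
  obtain ⟨m', hm'⟩ := IsIntegral.exists_multiple_integral_of_isLocalization (nonZeroDivisors ℤ)
    (Rₘ := ℚ) a⁻¹ (Algebra.IsIntegral.isIntegral a⁻¹)
  have hm0 : (m : ℤ) ≠ 0 := nonZeroDivisors.coe_ne_zero m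
  have hm'0 : (m' : ℤ) ≠ 0 := nonZeroDivisors.coe_ne_zero m'
  -- the exceptional primes divide `m * m'`
  have hsub : {p : Nat.Primes | ∃ σ : HtgQb ≃ₐ[ℚ] HtgQb, htgAbs (some p) (σ a) ≠ 1} ⊆
      (fun p : Nat.Primes => (p : ℕ)) ⁻¹' (((m : ℤ) * (m' : ℤ)).natAbs.primeFactors : Set ℕ) := by
    intro p hp
    obtain ⟨σ, hσ⟩ := hp
    by_contra hnot
    apply hσ
    have hndvd : ¬ ((p : ℕ) : ℤ) ∣ (m : ℤ) * (m' : ℤ) := by
      intro hd
      apply hnot
      show (p : ℕ) ∈ (((m : ℤ) * (m' : ℤ)).natAbs.primeFactors : Set ℕ)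
      rw [Finset.mem_coe, Nat.mem_primeFactors]
      refine ⟨p.2, Int.natCast_dvd.mp hd, ?_⟩
      rw [Int.natAbs_ne_zero]
      exact mul_ne_zero hm0 hm'0
    have hnd1 : ¬ ((p : ℕ) : ℤ) ∣ (m : ℤ) := fun h => hndvd (Dvd.dvd.mul_right h _)
    have hnd2 : ¬ ((p : ℕ) : ℤ) ∣ (m' : ℤ) := fun h => hndvd (Dvd.dvd.mul_left h _)
    have hunit : ∀ (b : HtgQb) (k : ℤ), ¬ ((p : ℕ) : ℤ) ∣ k → IsIntegral ℤ (k • b) →
        htgAbs (some p) (σ b) ≤ 1 := by
      intro b k hk hb
      have hi : IsIntegral ℤ (σ (k • b)) := map_isIntegral_int σ hb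
      have h2 := htgAbs_some_le_one_of_isIntegral p hi
      rw [zsmul_eq_mul, map_mul, map_intCast, map_mul, htgAbs_intCast_eq_one p k hk, one_mul] at h2
      exact h2
    have h1 : htgAbs (some p) (σ a) ≤ 1 := hunit a m hnd1 hm
    have h2 : htgAbs (some p) (σ a⁻¹) ≤ 1 := hunit a⁻¹ m' hnd2 hm'
    rw [map_inv₀, map_inv₀] at h2
    have hpos : 0 < htgAbs (some p) (σ a) := by
      apply (htgAbs (some p)).pos
      intro h0
      exact ha ((map_eq_zero_iff σ σ.injective).mp h0)
    have h3 : 1 ≤ htgAbs (some p) (σ a) := by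
      rw [inv_le_one₀ hpos] at h2
      exact h2
    exact le_antisymm h1 h3
  exact Set.Finite.subset (Set.Finite.preimage (fun x _ y _ h => Subtype.ext h)
    (Finset.finite_toSet _)) hsub

end Fermat.Agent.HT
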