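import Fermat.Agent.HT.Glob.Places

/-!
# Program MW (S17), heights half, global layer (D3): the product formula

Owner: helper22.  Prefix `htg`.

* `htgLogSum x = ∑ᶠ v, log (htgAbs v x)`; additive on nonzero elements (`htgLogSum_mul`);
* `htgLogSum_ratCast` : the product formula of `ℚ` for the fixed places of `Qb`;
* `htgLogSum_eq_zero_of_fixed` : `htgLogSum c = 0` for every nonzero Galois-invariant `c`;
* **`htg_product_formula_orbit`** : for a finite Galois-stable family `s` and an equivariant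
  nowhere vanishing function `a` on it, `∑ᶠ v, ∑ z ∈ s, log (htgAbs v (a z)) = 0`.
-/

set_option autoImplicit false

namespace Fermat.Agent.HT

local instance htgIsAlgClosure : IsAlgClosure ℚ HtgQb := ⟨inferInstance, inferInstance⟩
local instance htgNormal : Normal ℚ HtgQb := IsAlgClosure.normal ℚ HtgQb
local instance htgIsGalois : IsGalois ℚ HtgQb := inferInstance

/-- the places where `x` is not a unit -/
theorem htg_support_finite {x : HtgQb} (hx : x ≠ 0) :
    (Function.support fun v : Option Nat.Primes => Real.log (htgAbs v x)).Finite := by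
  have h := htg_finite_support hx
  refine Set.Finite.subset ((h.image some).union (Set.finite_singleton none)) ?_
  intro v hv
  rw [Function.mem_support] at hv
  cases v with
  | none => right; rfl
  | some p =>
    left
    refine ⟨p, ⟨1, ?_⟩, rfl⟩
    intro h1
    apply hv
    rw [show ((1 : HtgQb ≃ₐ[ℚ] HtgQb) x) = x from rfl] at h1
    rw [h1, Real.log_one]

/-- the sum of the logarithms of all fixed absolute values -/
noncomputable def htgLogSum (x : HtgQb) : ℝ := ∑ᶠ v : Option Nat.Primes, Real.log (htgAbs v x)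

theorem htgLogSum_mul {x y : HtgQb} (hx : x ≠ 0) (hy : y ≠ 0) :
    htgLogSum (x * y) = htgLogSum x + htgLogSum y := by
  unfold htgLogSum
  rw [← finsum_add_distrib (htg_support_finite hx) (htg_support_finite hy)]
  congr 1
  funext v
  rw [map_mul, Real.log_mul]
  · exact ((htgAbs v).pos hx).ne'
  · exact ((htgAbs v).pos hy).ne'

theorem htgLogSum_one : htgLogSum 1 = 0 := by
  unfold htgLogSum
  simp

theorem htgLogSum_neg (x : HtgQb) : htgLogSum (-x) = htgLogSum x := by
  unfold htgLogSum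
  congr 1
  funext v
  rw [map_neg_eq_map]

theorem htgLogSum_prime (p : Nat.Primes) : htgLogSum ((p : ℕ) : HtgQb) = 0 := by
  unfold htgLogSum
  have hsupp : (Function.support fun v : Option Nat.Primes =>
      Real.log (htgAbs v (((p : ℕ) : HtgQb)))) ⊆ (({none, some p} : Finset (Option Nat.Primes)) : Set _) := by
    intro v hv
    rw [Function.mem_support] at hv
    cases v with
    | none => simp
    | some q =>
      by_cases hqp : q = p
      · subst hqp; simp
      · exfalso
        apply hv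
        have h1 : ((p : ℕ) : HtgQb) = (((p : ℕ) : ℤ) : HtgQb) := by simp
        rw [h1, htgAbs_intCast_eq_one q, Real.log_one]
        intro hd
        have h2 : (q : ℕ) ∣ (p : ℕ) := Int.natCast_dvd_natCast.mp hd
        exact hqp (Subtype.ext ((Nat.prime_dvd_prime_iff_eq q.2 p.2).mp h2))
  rw [finsum_eq_sum_of_support_subset _ hsupp, Finset.sum_pair (by simp)]
  have h1 : ((p : ℕ) : HtgQb) = algebraMap ℚ HtgQb ((p : ℕ) : ℚ) := by simp
  rw [h1, htgAbs_ratCast_none, htgAbs_ratCast_some, padicNorm.padicNorm_p_of_prime]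
  have hp0 : (0 : ℝ) < (p : ℕ) := by exact_mod_cast p.2.pos
  rw [abs_of_pos (by exact_mod_cast hp0)]
  push_cast
  rw [Real.log_inv]
  ring

theorem htgLogSum_natCast (n : ℕ) (hn : n ≠ 0) : htgLogSum (n : HtgQb) = 0 := by
  induction n using induction_on_primes with
  | zero => exact absurd rfl hn
  | one => simpa using htgLogSum_one
  | prime_mul p a hp ih =>
    have ha : a ≠ 0 := fun h => hn (by rw [h, mul_zero])
    rw [Nat.cast_mul, htgLogSum_mul (by exact_mod_cast hp.ne_zero) (by exact_mod_cast ha), ih ha,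
      add_zero]
    exact htgLogSum_prime ⟨p, hp⟩

theorem htgLogSum_intCast (n : ℤ) (hn : n ≠ 0) : htgLogSum (n : HtgQb) = 0 := by
  rcases Int.natAbs_eq n with h | h
  · rw [h, Int.cast_natCast]
    exact htgLogSum_natCast _ (Int.natAbs_ne_zero.mpr hn)
  · rw [h, Int.cast_neg, htgLogSum_neg, Int.cast_natCast]
    exact htgLogSum_natCast _ (Int.natAbs_ne_zero.mpr hn)

/-- **the product formula of `ℚ`** for the fixed places of `Qb` -/
theorem htgLogSum_ratCast (q : ℚ) (hq : q ≠ 0) : htgLogSum (algebraMap ℚ HtgQb q) = 0 := by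
  have hnum : q.num ≠ 0 := Rat.num_ne_zero.mpr hq
  have hden : (q.den : ℤ) ≠ 0 := by exact_mod_cast q.den_nz
  have h1 : algebraMap ℚ HtgQb q * ((q.den : ℤ) : HtgQb) = ((q.num : ℤ) : HtgQb) := by
    have h2 : (q * (q.den : ℚ)) = (q.num : ℚ) := Rat.mul_den_eq_num q
    have h3 := congrArg (algebraMap ℚ HtgQb) h2
    rw [map_mul] at h3
    simpa using h3
  have hq' : algebraMap ℚ HtgQb q ≠ 0 := by
    rw [Ne, map_eq_zero_iff _ (algebraMap ℚ HtgQb).injective]
    exact hq
  have h4 := htgLogSum_mul hq' (show ((q.den : ℤ) : HtgQb) ≠ 0 by exact_mod_cast hden)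
  rw [h1, htgLogSum_intCast _ hnum, htgLogSum_intCast _ hden, add_zero] at h4
  exact h4.symm

/-- the product formula for Galois-invariant elements -/
theorem htgLogSum_eq_zero_of_fixed {c : HtgQb} (hc : c ≠ 0)
    (hfix : ∀ σ : HtgQb ≃ₐ[ℚ] HtgQb, σ c = c) : htgLogSum c = 0 := by
  obtain ⟨q, rfl⟩ := (InfiniteGalois.mem_range_algebraMap_iff_fixed (k := ℚ) c).mpr hfix
  apply htgLogSum_ratCast
  rintro rfl
  exact hc (map_zero _)

theorem htgLogSum_prod {α : Type*} (s : Finset α) (a : α → HtgQb) (h0 : ∀ z ∈ s, a z ≠ 0) :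
    htgLogSum (∏ z ∈ s, a z) = ∑ z ∈ s, htgLogSum (a z) := by
  classical
  induction s using Finset.induction_on with
  | empty => simpa using htgLogSum_one
  | insert x s hx ih =>
    rw [Finset.prod_insert hx, Finset.sum_insert hx, htgLogSum_mul (h0 x (Finset.mem_insert_self x s))
      (Finset.prod_ne_zero_iff.mpr fun z hz => h0 z (Finset.mem_insert_of_mem hz)),
      ih fun z hz => h0 z (Finset.mem_insert_of_mem hz)]

/-- **The product formula over a finite Galois-stable family**: `s` a finite set stable under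
the Galois group, `a` an equivariant nowhere vanishing function on it. -/
theorem htg_product_formula_orbit {α : Type*} [MulAction (HtgQb ≃ₐ[ℚ] HtgQb) α] (s : Finset α)
    (hs : ∀ (σ : HtgQb ≃ₐ[ℚ] HtgQb), ∀ z ∈ s, σ • z ∈ s) (a : α → HtgQb)
    (ha : ∀ (σ : HtgQb ≃ₐ[ℚ] HtgQb), ∀ z ∈ s, a (σ • z) = σ (a z)) (h0 : ∀ z ∈ s, a z ≠ 0) :
    ∑ z ∈ s, htgLogSum (a z) = 0 := by
  rw [← htgLogSum_prod s a h0]
  apply htgLogSum_eq_zero_of_fixed (Finset.prod_ne_zero_iff.mpr h0)
  intro σ
  rw [map_prod]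
  refine Finset.prod_bij' (fun z _ => σ • z) (fun z _ => σ⁻¹ • z) (fun z hz => hs σ z hz)
    (fun z hz => hs σ⁻¹ z hz) (fun z _ => inv_smul_smul σ z) (fun z _ => smul_inv_smul σ z)
    (fun z hz => (ha σ z hz).symm)

/-- the same, with the sum over the places outside -/
theorem htg_product_formula_orbit' {α : Type*} [MulAction (HtgQb ≃ₐ[ℚ] HtgQb) α] (s : Finset α)
    (hs : ∀ (σ : HtgQb ≃ₐ[ℚ] HtgQb), ∀ z ∈ s, σ • z ∈ s) (a : α → HtgQb)
    (ha : ∀ (σ : HtgQb ≃ₐ[ℚ] HtgQb), ∀ z ∈ s, a (σ • z) = σ (a z)) (h0 : ∀ z ∈ s, a z ≠ 0) :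
    ∑ᶠ v : Option Nat.Primes, ∑ z ∈ s, Real.log (htgAbs v (a z)) = 0 := by
  rw [← htg_product_formula_orbit s hs a ha h0]
  unfold htgLogSum
  rw [finsum_sum_comm]
  intro z hz
  exact htg_support_finite (h0 z hz)

end Fermat.Agent.HT
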